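import Fermat.Agent.ModLift.Patch.Component
import Fermat.Agent.ModLift.Patch.PlaneInterface

/-!
# Patterns with too few generators, and patterns as quotients of the local model
-/

set_option autoImplicit false

noncomputable section

open IsLocalRing

namespace FLTAgent.ModLift.Lift

open FLTAgent.ModLift.Patch
open FLTAgent.Lowering

variable {O : Type} [CommRing O] [IsDomain O] [IsDiscreteValuationRing O] {n : ℕ}

/-- Killing the last variable gives a surjection which is not injective. -/
theorem exists_kill (s : ℕ) :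
    ∃ φ : Ser O (s + 1) →ₐ[O] Ser O s, Function.Surjective φ ∧ ¬ Function.Injective φ := by
  set e : Fin s ↪ Fin (s + 1) := Fin.castSuccEmb
  refine ⟨MvPowerSeries.killCompl e, fun b =>
    ⟨MvPowerSeries.rename e b, MvPowerSeries.killCompl_rename_app b⟩, fun h => ?_⟩
  have h0 : MvPowerSeries.killCompl e (MvPowerSeries.X (Fin.last s) : Ser O (s + 1)) = 0 :=
    MvPowerSeries.killCompl_X_eq_zero (by
      rintro ⟨i, hi⟩
      exact (Fin.castSucc_lt_last i).ne hi)
  have h1 := h (h0.trans (map_zero (MvPowerSeries.killCompl (R := O) e)).symm)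
  simpa [MvPowerSeries.coeff_X] using
    congrArg (MvPowerSeries.coeff (Finsupp.single (Fin.last s) 1)) h1

/-- More generators still generate. -/
theorem genBound_mono {s s' : ℕ} (h : s ≤ s') {I : Ideal (Ser O n)} (hI : GenBound s I) :
    GenBound s' I := by
  induction h with
  | refl => exact hI
  | step _ ih =>
    obtain ⟨γ, hγ⟩ := ih
    obtain ⟨φ, hφ, -⟩ := exists_kill (O := O) _
    exact ⟨γ.comp φ, hγ.comp hφ⟩

/-- A larger pattern is generated by the same variables. -/
theorem genBound_le {s : ℕ} {I J : Ideal (Ser O n)} (h : I ≤ J) (hI : GenBound s I) :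
    GenBound s J := by
  obtain ⟨γ, hγ⟩ := hI
  exact ⟨(Ideal.Quotient.factorₐ O h).comp γ, (Ideal.Quotient.factor_surjective h).comp hγ⟩

variable [IsAdicComplete (maximalIdeal O) O] [Finite (ResidueField O)]

/-- No component contains a pattern generated by fewer variables than the coefficient ring. -/
theorem not_comp_of_genBound_lt {s s' : ℕ} (hs : s' < s) (M : Patched O n s)
    {q I : Ideal (Ser O n)} (hq : M.IsComp q) (hI : I ≤ q) (hgen : GenBound s' I) : False := by
  obtain ⟨s₀, rfl⟩ := Nat.exists_eq_succ_of_ne_zero (Nat.ne_zero_of_lt hs)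
  obtain ⟨γ₀, hγ₀⟩ := genBound_mono (Nat.le_of_lt_succ hs) hgen
  obtain ⟨φ, hφ, hnot⟩ := exists_kill (O := O) s₀
  set γ := γ₀.comp φ
  have hγ : Function.Surjective γ := hγ₀.comp hφ
  obtain ⟨Q, hQ, rfl⟩ := Patched.exists_lift hq
  have : Q.IsPrime := hQ.1.1
  have : IsDomain (Ser O (s₀ + 1)) := isDomain_ser
  set f : Ser O n ⧸ I →+* M.alg ⧸ Q := Ideal.Quotient.lift I
    ((Ideal.Quotient.mk Q).comp M.toAlg) fun x hx =>
      Ideal.Quotient.eq_zero_iff_mem.2 (Ideal.mem_comap.1 (hI hx))
  have hf : f.Finite := RingHom.Finite.of_comp_finite (f := Ideal.Quotient.mk I) (by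
    rw [Ideal.Quotient.lift_comp_mk]; exact Patched.finite_component hQ)
  obtain ⟨hgf, hgi⟩ := Patched.ringKrullDim_component hQ
  have hinj : Function.Injective (f.comp γ.toRingHom) :=
    injective_of_finite_of_dim le_rfl _ (hf.comp (RingHom.Finite.of_surjective _ hγ)) _ hgf hgi
  exact hnot fun x y hxy => hinj (show f (γ₀ (φ x)) = f (γ₀ (φ y)) by rw [hxy])

/-- A pattern generated, once the coordinates at the scalar primes are killed, by `g` variables is
a quotient of the local model, the coordinates going to themselves. -/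
theorem exists_model {k g : ℕ} (ix iu : Fin k → Fin 3 → Fin n) {I : Ideal (Ser O n)}
    (hI : GenBound g (I ⊔ Ideal.span (Set.range (fun v : Fin k × Fin 3 =>
      (MvPowerSeries.X (ix v.1 v.2) : Ser O n)) ∪ Set.range (fun v : Fin k × Fin 3 =>
      (MvPowerSeries.X (iu v.1 v.2) : Ser O n))))) :
    ∃ γ : P5.Loc O k g →ₐ[O] Ser O n,
      (∀ t i, γ (P5.Xc t i) = MvPowerSeries.X (ix t i)) ∧
      (∀ t i, γ (P5.Uc t i) = MvPowerSeries.X (iu t i)) ∧
      Function.Surjective ((Ideal.Quotient.mkₐ O I).comp γ) := by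
  classical
  set K : Ideal (Ser O n) := I ⊔ Ideal.span (Set.range (fun v : Fin k × Fin 3 =>
    (MvPowerSeries.X (ix v.1 v.2) : Ser O n)) ∪ Set.range (fun v : Fin k × Fin 3 =>
    (MvPowerSeries.X (iu v.1 v.2) : Ser O n))) with hKdef
  obtain ⟨G, hG⟩ := hI
  choose y hy using fun l : Fin g => Ideal.Quotient.mk_surjective (G (MvPowerSeries.X l))
  set z : Fin g → Ser O n := fun l => y l - MvPowerSeries.C (MvPowerSeries.constantCoeff (y l))
  set a : Lowering.P5.LocVar k g → Ser O n :=
    Sum.elim (fun v => MvPowerSeries.X (ix v.1 v.2))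
      (Sum.elim (fun v => MvPowerSeries.X (iu v.1 v.2)) z) with ha
  have ha0 : ∀ v, MvPowerSeries.constantCoeff (a v) = 0 := by
    rintro (v | v | v) <;> simp [a, z]
  set γ : P5.Loc O k g →ₐ[O] Ser O n :=
    MvPowerSeries.substAlgHom (MvPowerSeries.hasSubst_of_constantCoeff_zero ha0) with hγdef
  have hγX : ∀ v, γ (MvPowerSeries.X v) = a v := fun v =>
    MvPowerSeries.substAlgHom_X _ v
  refine ⟨γ, fun t i => hγX _, fun t i => hγX _, ?_⟩
  by_cases htop : I = ⊤
  · subst htop
    exact fun b => ⟨0, Subsingleton.elim (α := Ser O n ⧸ (⊤ : Ideal (Ser O n))) _ _⟩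
  set f := ((Ideal.Quotient.mkₐ O I).comp γ) with hf
  letI : Algebra (P5.Loc O k g) (Ser O n ⧸ I) := f.toRingHom.toAlgebra
  have : Nontrivial (Ser O n ⧸ I) := Ideal.Quotient.nontrivial_iff.2 htop
  have : IsLocalRing (Ser O n ⧸ I) :=
    IsLocalRing.of_surjective' _ Ideal.Quotient.mk_surjective
  have := Lowering.P5.isAdicComplete_mvPowerSeries_of_finite (O := O) (Lowering.P5.LocVar k g)
  obtain ⟨ϖ, hϖ⟩ := IsDiscreteValuationRing.exists_irreducible O
  have hϖm : maximalIdeal O = Ideal.span {ϖ} := hϖ.maximalIdeal_eq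
  set gens : Lowering.P5.LocVar k g ⊕ Unit → Ser O n ⧸ I :=
    Sum.elim (fun v => f (MvPowerSeries.X v)) (fun _ => f (MvPowerSeries.C ϖ)) with hgens
  have hmax : ∀ v, gens v ∈ (maximalIdeal (P5.Loc O k g)).map
      (algebraMap (P5.Loc O k g) (Ser O n ⧸ I)) := by
    rintro (v | u)
    · refine Ideal.mem_map_of_mem f.toRingHom ((mem_maximalIdeal _).2 ?_)
      rw [mem_nonunits_iff, MvPowerSeries.isUnit_iff_constantCoeff]
      simp
    · refine Ideal.mem_map_of_mem f.toRingHom ((mem_maximalIdeal _).2 ?_)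
      rw [mem_nonunits_iff, MvPowerSeries.isUnit_iff_constantCoeff,
        MvPowerSeries.constantCoeff_C]
      exact hϖ.not_isUnit
  have hle : (maximalIdeal (P5.Loc O k g)).map (algebraMap (P5.Loc O k g) (Ser O n ⧸ I)) ≤
      maximalIdeal (Ser O n ⧸ I) := by
    rw [Ideal.map_le_iff_le_comap]
    intro x hx
    rw [Ideal.mem_comap, mem_maximalIdeal, mem_nonunits_iff]
    intro hu
    have hc : MvPowerSeries.constantCoeff x ∈ maximalIdeal O := by
      rw [mem_maximalIdeal, mem_nonunits_iff]
      exact fun h => (mem_maximalIdeal x).1 hx (MvPowerSeries.isUnit_iff_constantCoeff.2 h)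
    have hloc : IsLocalHom (Ideal.Quotient.mk I) :=
      IsLocalHom.of_surjective _ Ideal.Quotient.mk_surjective
    have h1 : IsUnit (γ x) := (isUnit_map_iff (Ideal.Quotient.mk I) (γ x)).1 hu
    rw [MvPowerSeries.isUnit_iff_constantCoeff] at h1
    have h2 : MvPowerSeries.constantCoeff (γ x) = MvPowerSeries.constantCoeff x := by
      have h3 := Lowering.P5.sub_C_constantCoeff_mem_span_X x
      have h4 := Ideal.mem_map_of_mem γ.toRingHom h3
      rw [Ideal.map_span] at h4
      have h5 : Ideal.span (γ.toRingHom '' Set.range MvPowerSeries.X) ≤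
          RingHom.ker (MvPowerSeries.constantCoeff (σ := Fin n) (R := O)) := by
        rw [Ideal.span_le]
        rintro _ ⟨_, ⟨v, rfl⟩, rfl⟩
        show MvPowerSeries.constantCoeff (γ (MvPowerSeries.X v)) = 0
        rw [hγX]; exact ha0 v
      have h6 := h5 h4
      rw [RingHom.mem_ker] at h6
      simp only [AlgHom.toRingHom_eq_coe, RingHom.coe_coe, map_sub] at h6
      rw [show γ (MvPowerSeries.C (MvPowerSeries.constantCoeff x)) =
        MvPowerSeries.C (MvPowerSeries.constantCoeff x) from γ.commutes _,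
        MvPowerSeries.constantCoeff_C, sub_eq_zero] at h6
      exact h6
    exact (mem_maximalIdeal _).1 hc (h2 ▸ h1)
  have : IsHausdorff ((maximalIdeal (P5.Loc O k g)).map
      (algebraMap (P5.Loc O k g) (Ser O n ⧸ I))) (Ser O n ⧸ I) := by
    refine ⟨fun x hx => (IsHausdorff.haus (I := maximalIdeal (Ser O n ⧸ I)) inferInstance x
      fun m => ?_)⟩
    exact SModEq.mono (Submodule.smul_mono_left (Ideal.pow_right_mono hle m)) (hx m)
  have hspan : ∀ x : Ser O n ⧸ I, ∃ b ∈ Submodule.span (P5.Loc O k g) ({1} : Set (Ser O n ⧸ I)),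
      x - b ∈ Ideal.span (Set.range gens) := by
    intro x
    obtain ⟨x, rfl⟩ := Ideal.Quotient.mk_surjective x
    obtain ⟨w, hw⟩ := hG (Ideal.Quotient.mk _ x)
    set c := MvPowerSeries.constantCoeff w
    refine ⟨(MvPowerSeries.C c : P5.Loc O k g) • (1 : Ser O n ⧸ I),
      Submodule.smul_mem _ _ (Submodule.subset_span rfl), ?_⟩
    set J : Ideal (Ser O n) := Ideal.comap (Ideal.Quotient.mk I) (Ideal.span (Set.range gens))
    have hIJ : I ≤ J := fun u hu => by
      rw [Ideal.mem_comap, Ideal.Quotient.eq_zero_iff_mem.2 hu]; exact zero_mem _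
    have hvar : ∀ v, a v ∈ J := fun v => Ideal.mem_comap.2
      (Ideal.subset_span ⟨Sum.inl v, by simp [gens, hf, hγX]⟩)
    have hϖJ : MvPowerSeries.C ϖ ∈ J := Ideal.mem_comap.2
      (Ideal.subset_span ⟨Sum.inr (), by
        show f (MvPowerSeries.C ϖ) = Ideal.Quotient.mk I (MvPowerSeries.C ϖ)
        exact f.commutes ϖ⟩)
    have hKJ : K ≤ J := sup_le hIJ (Ideal.span_le.2 (by
      rintro _ (⟨v, rfl⟩ | ⟨v, rfl⟩)
      · exact hvar (Sum.inl v)
      · exact hvar (Sum.inr (Sum.inl v))))
    have hyJ : ∀ l, y l ∈ J := fun l => by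
      have h1 : z l ∈ J := hvar (Sum.inr (Sum.inr l))
      have h2 : MvPowerSeries.C (MvPowerSeries.constantCoeff (y l)) ∈ J := by
        have hu : ¬ IsUnit (G (MvPowerSeries.X l)) := fun hu => by
          by_cases hK : K = ⊤
          · exact htop (eq_top_iff.2 fun u _ => by
              exfalso
              have h1J : (1 : Ser O n) ∈ J := hKJ (hK ▸ Submodule.mem_top)
              have h1g : (1 : Ser O n ⧸ I) ∈ maximalIdeal (Ser O n ⧸ I) := by
                refine (le_trans (Ideal.span_le.2 ?_) hle) (Ideal.mem_comap.1 h1J)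
                rintro _ ⟨v, rfl⟩
                exact hmax v
              exact (maximalIdeal.isMaximal _).ne_top ((Ideal.eq_top_iff_one _).2 h1g))
          · have : Nontrivial (Ser O n ⧸ K) := Ideal.Quotient.nontrivial_iff.2 hK
            have : IsLocalRing (Ser O n ⧸ K) :=
              IsLocalRing.of_surjective' _ Ideal.Quotient.mk_surjective
            have : IsLocalHom G.toRingHom := IsLocalHom.of_surjective _ hG
            have := (isUnit_map_iff G.toRingHom _).1 hu
            rw [MvPowerSeries.isUnit_iff_constantCoeff] at this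
            simp at this
        have hc : MvPowerSeries.constantCoeff (y l) ∈ maximalIdeal O := by
          rw [mem_maximalIdeal, mem_nonunits_iff]
          intro h
          exact hu (hy l ▸ (MvPowerSeries.isUnit_iff_constantCoeff.2 h).map (Ideal.Quotient.mk K))
        rw [hϖm, Ideal.mem_span_singleton] at hc
        obtain ⟨e, he⟩ := hc
        rw [he, map_mul]
        exact Ideal.mul_mem_right _ _ hϖJ
      have := add_mem h1 h2
      simpa [z] using this
    have hGJ : ∀ u : Ser O g, ∀ v : Ser O n, G u = Ideal.Quotient.mk K v →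
        MvPowerSeries.constantCoeff u = 0 → v ∈ J := by
      intro u v huv hu0
      have h3 := Lowering.P5.sub_C_constantCoeff_mem_span_X u
      rw [hu0, map_zero, sub_zero] at h3
      obtain ⟨e, he⟩ := Ideal.mem_span_range_iff_exists_fun.1 h3
      choose d hd using fun l => Ideal.Quotient.mk_surjective (G (e l))
      have h4 : v - ∑ l, d l * y l ∈ K := by
        rw [← Ideal.Quotient.eq_zero_iff_mem, map_sub, map_sum, ← huv, ← he, map_sum,
          sub_eq_zero]
        refine Finset.sum_congr rfl fun l _ => ?_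
        rw [map_mul, map_mul, hd, hy]
      have := add_mem (hKJ h4) (Ideal.sum_mem J fun l (_ : l ∈ Finset.univ) =>
        Ideal.mul_mem_left J (d l) (hyJ l))
      rwa [sub_add_cancel] at this
    have key : x - MvPowerSeries.C c ∈ J := hGJ (w - MvPowerSeries.C c) _ (by
      rw [map_sub, hw, map_sub]
      congr 1
      exact G.commutes c) (by simp [c])
    have := Ideal.mem_comap.1 key
    rw [map_sub] at this
    rw [Algebra.smul_def, mul_one]
    show Ideal.Quotient.mk I x - f (MvPowerSeries.C c) ∈ _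
    rw [show f (MvPowerSeries.C c) = Ideal.Quotient.mk I (MvPowerSeries.C c) from f.commutes c]
    exact this
  obtain ⟨-, hadj⟩ := Lowering.P5.finite_and_adjoin_eq_top (maximalIdeal (P5.Loc O k g)) gens
    (F := ({1} : Set (Ser O n ⧸ I))) (Set.finite_singleton 1) hspan
    (fun v => Ideal.le_radical (hmax v))
  intro b
  have hb : b ∈ Algebra.adjoin (P5.Loc O k g) ({1} ∪ Set.range gens) := hadj ▸ Algebra.mem_top
  induction hb using Algebra.adjoin_induction with
  | mem v hv =>
    rcases hv with rfl | ⟨v | u, rfl⟩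
    · exact ⟨1, map_one _⟩
    · exact ⟨_, rfl⟩
    · exact ⟨_, rfl⟩
  | algebraMap r => exact ⟨r, rfl⟩
  | add u v _ _ hu hv =>
    obtain ⟨u, rfl⟩ := hu; obtain ⟨v, rfl⟩ := hv; exact ⟨u + v, map_add _ _ _⟩
  | mul u v _ _ hu hv =>
    obtain ⟨u, rfl⟩ := hu; obtain ⟨v, rfl⟩ := hv; exact ⟨u * v, map_mul _ _ _⟩

end FLTAgent.ModLift.Lift
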