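import Fermat.Agent.ModLift.WPoint.Interface
import Fermat.Agent.ModLift.Modules.Interface
import Fermat.Agent.ModLift.Tangent.Interface

/-!
# The situation of the lifting theorem

A residual representation with its curve, the setup at the starting level, and the primes added one
by one. The starting level is divisible by the ramified primes `Y0`, the scalar primes `T`, the
auxiliary prime `r`, and by `p` exactly when the extension at `p` is not given by a unit.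
-/

set_option autoImplicit false

noncomputable section

open IsLocalRing

namespace FLTAgent.ModLift

open FLTAgent.TWPrimes (Datum)

local notation "LL" => AlgebraicClosure ℚ
local notation "GG" => (AlgebraicClosure ℚ ≃ₐ[ℚ] AlgebraicClosure ℚ)
local notation "M2" => Matrix (Fin 2) (Fin 2)

/-- The situation. -/
structure Ctx (W : WeierstrassCurve ℤ) (hΔ : W.Δ ≠ 0) (p : ℕ) [Fact p.Prime] (O : Type)
    [CommRing O] [IsDomain O] [IsDiscreteValuationRing O] [Algebra ℤ_[p] O]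
    [Algebra (ZMod p) (ResidueField O)] where
  p_mem : (p : O) ∈ maximalIdeal O
  two_unit : IsUnit (2 : O)
  curve : CurvePoint W hΔ p
  D : Datum p (ResidueField O)
  rb_eq : ∀ σ : GG, (D.rb σ : M2 (ResidueField O)) =
    (curve.r σ : M2 ℤ_[p]).map ((residue O).comp (algebraMap ℤ_[p] O))
  S0 : Setup p O
  S0_rb : S0.rb = D.rb
  S0_bad : ∀ l : Nat.Primes, l ∈ D.bad → (l : ℕ) ∈ S0.bad
  Y0 : Finset ℕ
  r : ℕ
  /-- The number of primes to be added. -/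
  m : ℕ
  /-- The primes to be added, `p` only as the last one. -/
  q : ℕ → ℕ
  q_prime : ∀ j < m, (q j).Prime
  q_last : ∀ j < m, q j = p → j + 1 = m
  sqfree : Squarefree (S0.M0 * ∏ j ∈ Finset.range m, q j)
  level_iff : ∀ l : ℕ, l.Prime → (l ∣ S0.M0 ↔
    l ∈ Y0 ∨ l ∈ S0.T ∨ l = r ∨ (l = p ∧ p ∣ S0.M0))
  bad_iff : ∀ l : ℕ, l.Prime → (l ∈ S0.bad ↔
    l = 2 ∨ l = 3 ∨ l = p ∨ l ∣ S0.M0 * ∏ j ∈ Finset.range m, q j)
  cover : ∀ l : ℕ, l.Prime → (l : ℤ) ∣ W.Δ → l ∣ S0.M0 * ∏ j ∈ Finset.range m, q j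
  modular : ∀ i ≤ m, ∃ (_ : NeZero (S0.M0 * ∏ j ∈ Finset.range i, q j))
    (θ : CuspForm.heckeAlgebra (S0.M0 * ∏ j ∈ Finset.range i, q j) 2 (↑S0.bad : Set ℕ) →+*
      ResidueField O),
    ∀ (l : ℕ) (hl : l.Prime) (hlM : ¬ l ∣ S0.M0 * ∏ j ∈ Finset.range i, q j)
      (hlb : l ∉ (↑S0.bad : Set ℕ)),
      ∀ V : ValuationSubring LL, V.LiesOverPrime l → ∀ σ : GG, V.IsFrobeniusAt σ l →
        θ (CuspForm.heckeAlgebra.T hl hlM hlb) = Lowering.trGL (S0.rb σ)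
  Y0_spec : ∀ l ∈ Y0, l.Prime ∧ l ≠ p ∧ (l : ℤ) ∣ W.Δ ∧
    ∀ V : ValuationSubring LL, V.LiesOverPrime l →
      (∃ σ ∈ V.inertiaSubgroupIn ℚ, D.rb σ ≠ 1) ∧
      ∀ σ ∈ V.inertiaSubgroupIn ℚ, ((D.rb σ : M2 (ResidueField O)) - 1) ^ 2 = 0
  unramified : ∀ l : ℕ, l.Prime → l ≠ p → l ∉ Y0 → ∀ V : ValuationSubring LL,
    V.LiesOverPrime l → ∀ σ ∈ V.inertiaSubgroupIn ℚ, D.rb σ = 1
  T_scalar : ∀ t ∈ S0.T, t ∉ Y0 ∧ t ≠ r ∧ ∀ V : ValuationSubring LL, V.LiesOverPrime t →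
    ∀ φ : GG, V.IsFrobeniusAt φ t →
      ∃ a : ResidueField O, (D.rb φ : M2 (ResidueField O)) = a • 1
  r_spec : r.Prime ∧ r ≠ p ∧ r ∉ Y0 ∧ W.IsGoodPrimeFor r ∧
    ∀ V : ValuationSubring LL, V.LiesOverPrime r → ∀ φ : GG, V.IsFrobeniusAt φ r →
      (∀ a : ResidueField O, (D.rb φ : M2 (ResidueField O)) ≠ a • 1) ∧
      ∀ ε : ResidueField O, ε ^ 2 = 1 →
        Matrix.trace (D.rb φ : M2 (ResidueField O)) ≠ ε * ((r : ResidueField O) + 1)
  q_spec : ∀ j < m, (q j : ℤ) ∣ W.Δ ∧ (q j ≠ p →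
    ∀ V : ValuationSubring LL, V.LiesOverPrime (q j) → ∀ φ : GG, V.IsFrobeniusAt φ (q j) →
      ∀ a : ResidueField O, (D.rb φ : M2 (ResidueField O)) ≠ a • 1)
  at_p : p ∣ S0.M0 → (p : ℤ) ∣ W.Δ ∧
    ∀ V : ValuationSubring LL, V.LiesOverPrime p → NotUnitExt D V

/-- The hypotheses of the lifting theorem give the situation. -/
def TargetCtx : Prop :=
  ∀ (p : ℕ) [Fact p.Prime], p = 3 ∨ p = 5 →
    ∀ (W : WeierstrassCurve ℤ) (hΔ : W.Δ ≠ 0), W.IsSemistableModel → W.ModRepIsIrreducible p →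
    ∀ M : ℕ, Squarefree M → W.IsResiduallyModularOfLevel p M →
      (p ∣ M → ¬ (W.map (Int.castRingHom ℚ)).IsPeuRamifieeAt p p) →
      (∀ q : ℕ, q.Prime → q ∣ M → q ≠ p →
        ¬ (LevelMatch.resW W hΔ p).IsUnramifiedAt q ∨ IsScalarPrime W hΔ p q) →
      TargetCurvePoint →
      ∃ (O : Type) (_ : CommRing O) (_ : IsDomain O) (_ : IsDiscreteValuationRing O)
        (_ : Algebra ℤ_[p] O) (_ : Module.Finite ℤ_[p] O) (_ : CharZero O)
        (_ : IsAdicComplete (maximalIdeal O) O) (_ : Finite (ResidueField O))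
        (_ : Algebra (ZMod p) (ResidueField O)),
        Nonempty (Ctx W hΔ p O)

end FLTAgent.ModLift
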