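import Fermat.Agent.ModLift.Lift.Algebra
import Fermat.Agent.ModLift.Patch.Hyper
import Fermat.Agent.ModLift.Patch.Raise

/-!
# The point of the curve lies in the support of the last module

`Input` lists what the patched modules of the successive levels satisfy. The start is the
unramified shape at the scalar primes, by the twisted module; the primes are added one at a time
by the degeneracy maps; the shape of the curve at the scalar primes is reached at the last level
through the twisted module again.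
-/

set_option autoImplicit false
set_option linter.unusedSectionVars false

noncomputable section

open IsLocalRing

namespace FLTAgent.ModLift.Lift

open FLTAgent.ModLift.Patch FLTAgent.Lowering

/-- The variables with the indices `ix`. -/
def varSet (O : Type) [CommRing O] {n k : ℕ} (ix : Fin k → Fin 3 → Fin n) : Set (Ser O n) :=
  Set.range fun v : Fin k × Fin 3 => (MvPowerSeries.X (ix v.1 v.2) : Ser O n)

/-- The coordinates of Frobenius at the scalar primes. -/
def frobVec (O : Type) [CommRing O] {n k : ℕ} (ix iu : Fin k → Fin 3 → Fin n) (t : Fin k)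
    (i : Fin 3) : Ser O n :=
  MvPowerSeries.X (iu t i) - P5.shift (fun j => (MvPowerSeries.X (ix t j) : Ser O n)) i

/-- The first `i` Steinberg patterns. -/
def upTo {α : Type} (S : ℕ → Set α) (i : ℕ) : Set α := {x | ∃ j < i, x ∈ S j}

variable (O : Type) [CommRing O] [IsDomain O] [IsDiscreteValuationRing O]

/-- What the patched modules satisfy. -/
structure Input (n s : ℕ) where
  k : ℕ
  g : ℕ
  s_eq : s = 3 * k + g
  ix : Fin k → Fin 3 → Fin n
  iu : Fin k → Fin 3 → Fin n
  δ : O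
  δ_mem : δ ∈ maximalIdeal O
  δ_ne : δ ≠ 0
  h : Fin k → O
  h_mem : ∀ t, h t ∈ maximalIdeal O
  h_ne : ∀ t, h t ≠ 0
  m : ℕ
  g_two : 2 ≤ g
  node : ℕ → Patched O n s
  tw0 : Patched O n s
  tw1 : Patched O n s
  pair : ∀ j, j < m → Pair (node j) (node (j + 1))
  old : ℕ → Set (Ser O n)
  old_range : ∀ j (hj : j < m), ∀ x ∈ old j, ∃ l : ℕ, ∀ v,
    (((node (j + 1)).act x ^ l).mulVec v) ∈ LinearMap.range (pair j hj).i
  /-- Congruent modules have the same support in characteristic `p`. -/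
  special0 : ∀ P : Ideal (Ser O n), (∀ a ∈ maximalIdeal O, MvPowerSeries.C a ∈ P) →
    tw0.InSupp P → (node 0).InSupp P
  special1 : ∀ P : Ideal (Ser O n), (∀ a ∈ maximalIdeal O, MvPowerSeries.C a ∈ P) →
    ((node m).InSupp P ↔ tw1.InSupp P)
  /-- The elements raising the level. -/
  f : ℕ → Ser O n
  /-- The opposite sign is the translate of `f` by this constant. -/
  shiftC : ℕ → O
  shiftC_ne : ∀ j < m, shiftC j ≠ 0
  f_mem : ∀ j < m, f j ∈ maximalIdeal (Ser O n)
  det_f : ∀ j (hj : j < m), (pair j hj).A.det ∈ Ideal.span {f j}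
  /-- The Steinberg equations. -/
  st : ℕ → Set (Ser O n)
  f_st : ∀ j < m, f j ∈ st j
  /-- The equations of being unramified. -/
  unr : ℕ → Set (Ser O n)
  new : ∀ j < m, ∀ Q : Ideal (Ser O n), Q.IsPrime → RingHom.ker (node (j + 1)).act ≤ Q →
    old j ⊆ (Q : Set (Ser O n)) → f j ∈ Q ∨ f j + MvPowerSeries.C (shiftC j) ∈ Q
  split : ∀ i ≤ m, ∀ z < i, ∀ Q : Ideal (Ser O n), Q.IsPrime →
    (RingHom.ker (node i).act ≤ Q ∨ (i = m ∧ RingHom.ker tw1.act ≤ Q)) →
    unr z ⊆ (Q : Set (Ser O n)) ∨ st z ⊆ (Q : Set (Ser O n)) ∨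
      (f z + MvPowerSeries.C (shiftC z) ∈ Q ∧ ∀ P : Ideal (Ser O n), P.IsPrime → Q ≤ P →
        st z ⊆ (P : Set (Ser O n)) → unr z ⊆ (P : Set (Ser O n)))
  plain : ∀ i ≤ m, ∀ t l, IsNilpotent ((node i).act
    ((P5.qf (frobVec O ix iu t) - MvPowerSeries.C (h t ^ 2)) * MvPowerSeries.X (ix t l)))
  steinberg : ∀ t, ∀ Q : Ideal (Ser O n), Q.IsPrime → RingHom.ker (node m).act ≤ Q →
    (∀ l, MvPowerSeries.X (ix t l) ∈ Q) ∨
      (P5.qf (fun j => (MvPowerSeries.X (ix t j) : Ser O n)) ∈ Q ∧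
        P5.qf (frobVec O ix iu t) - MvPowerSeries.C (h t ^ 2) ∈ Q ∧
        ∀ l, (![frobVec O ix iu t 1 * MvPowerSeries.X (ix t 2) -
              frobVec O ix iu t 2 * MvPowerSeries.X (ix t 1),
            2 * (frobVec O ix iu t 0 * MvPowerSeries.X (ix t 1) -
              frobVec O ix iu t 1 * MvPowerSeries.X (ix t 0)),
            2 * (frobVec O ix iu t 2 * MvPowerSeries.X (ix t 0) -
              frobVec O ix iu t 0 * MvPowerSeries.X (ix t 2))] : Fin 3 → Ser O n) l -
          MvPowerSeries.C (2 * h t) * MvPowerSeries.X (ix t l) ∈ Q)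
  minor : ∀ (e : Bool) t i j, IsNilpotent ((cond e tw1 tw0).act
    (frobVec O ix iu t i * MvPowerSeries.X (ix t j) -
      frobVec O ix iu t j * MvPowerSeries.X (ix t i)))
  curve : ∀ (e : Bool) t, IsNilpotent ((cond e tw1 tw0).act
    (P5.qf (fun j => (MvPowerSeries.X (ix t j) : Ser O n)) - MvPowerSeries.C (δ ^ 2)))
  /-- The point. -/
  pt : Ser O n →ₐ[O] O
  τ : Finset (Fin k)
  pt_st : ∀ j < m, ∀ x ∈ st j, pt x = 0
  pt_unr : ∀ t, t ∉ τ → ∀ l, pt (MvPowerSeries.X (ix t l)) = 0
  pt_ram : ∀ t ∈ τ, ∃ l, pt (MvPowerSeries.X (ix t l)) ≠ 0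
  pt_plane : ∀ t ∈ τ, pt (P5.qf (fun j => (MvPowerSeries.X (ix t j) : Ser O n))) = 0 ∧
    pt (P5.qf (frobVec O ix iu t) - MvPowerSeries.C (h t ^ 2)) = 0 ∧
    ∀ l, pt ((![frobVec O ix iu t 1 * MvPowerSeries.X (ix t 2) -
              frobVec O ix iu t 2 * MvPowerSeries.X (ix t 1),
            2 * (frobVec O ix iu t 0 * MvPowerSeries.X (ix t 1) -
              frobVec O ix iu t 1 * MvPowerSeries.X (ix t 0)),
            2 * (frobVec O ix iu t 2 * MvPowerSeries.X (ix t 0) -
              frobVec O ix iu t 0 * MvPowerSeries.X (ix t 2))] : Fin 3 → Ser O n) l -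
          MvPowerSeries.C (2 * h t) * MvPowerSeries.X (ix t l)) = 0
  /-- The numbers of generators. -/
  genX : ∀ i ≤ m, GenBound s (RingHom.ker (node i).act ⊔
    Ideal.span (varSet O ix ∪ upTo st i))
  genHyp : ∀ i < m, GenBound (s - 1) (RingHom.ker (node i).act ⊔
    Ideal.span (varSet O ix ∪ upTo st i ∪ {f i}))
  genHypU : ∀ i < m, GenBound (g - 1) (RingHom.ker (node i).act ⊔
    Ideal.span (varSet O ix ∪ varSet O iu ∪ upTo st i ∪ {f i}))
  genExcl : ∀ i < m, ∀ z < i, GenBound (s - 2) (RingHom.ker (node i).act ⊔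
    Ideal.span (varSet O ix ∪ upTo st i ∪ {f i} ∪ unr z))
  genNew : ∀ i < m, GenBound (s - 1) (RingHom.ker (node (i + 1)).act ⊔
    Ideal.span (varSet O ix ∪ upTo st i ∪ {f i} ∪ unr i))
  genT0 : GenBound g ((RingHom.ker (node 0).act ⊓ RingHom.ker tw0.act) ⊔
    Ideal.span (varSet O ix ∪ varSet O iu))
  genT1 : GenBound g ((RingHom.ker (node m).act ⊓ RingHom.ker tw1.act ⊓ RingHom.ker pt) ⊔
    Ideal.span (varSet O ix ∪ varSet O iu ∪ upTo st m))
  genT1Excl : ∀ z < m, GenBound (g - 1)
    ((RingHom.ker (node m).act ⊓ RingHom.ker tw1.act ⊓ RingHom.ker pt) ⊔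
      Ideal.span (varSet O ix ∪ varSet O iu ∪ upTo st m ∪ unr z))

variable {O} {n s : ℕ}

/-- Elements acting nilpotently lie in every prime of the support. -/
theorem mem_of_nilpotent {M : Patched O n s} {Q : Ideal (Ser O n)} (hQ : Q.IsPrime)
    (hker : RingHom.ker M.act ≤ Q) {x : Ser O n} (hx : IsNilpotent (M.act x)) : x ∈ Q := by
  obtain ⟨e, he⟩ := hx
  exact hQ.mem_of_pow_mem e (hker (by rw [RingHom.mem_ker, map_pow, he]))

/-- Series over a finite field in `g` variables need `g` generators. -/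
theorem le_of_surjective_residue {a g : ℕ}
    (G : Ser O a →ₐ[O] MvPowerSeries (Fin g) (ResidueField O)) (hG : Function.Surjective G) :
    g ≤ a := by
  classical
  let lin : MvPowerSeries (Fin g) (ResidueField O) → Fin g → ResidueField O :=
    fun b l => MvPowerSeries.coeff (Finsupp.single l 1) b
  have hmul : ∀ u v : MvPowerSeries (Fin g) (ResidueField O),
      MvPowerSeries.constantCoeff v = 0 →
      lin (u * v) = MvPowerSeries.constantCoeff u • lin v := by
    intro u v hv
    ext l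
    simp only [lin, Pi.smul_apply, smul_eq_mul]
    rw [MvPowerSeries.coeff_mul, Finsupp.antidiagonal_single, Finset.sum_map,
      Finset.Nat.antidiagonal_succ]
    simp [hv]
  have hX : ∀ l : Fin a, MvPowerSeries.constantCoeff (G (MvPowerSeries.X l)) = 0 := by
    intro l
    by_contra hne
    have : IsLocalHom G.toRingHom := IsLocalHom.of_surjective _ hG
    have hu := (isUnit_map_iff G.toRingHom (MvPowerSeries.X l)).1
      (MvPowerSeries.isUnit_iff_constantCoeff.2 (isUnit_iff_ne_zero.2 hne))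
    rw [MvPowerSeries.isUnit_iff_constantCoeff] at hu
    simp at hu
  let Φ : (Fin a → ResidueField O) →ₗ[ResidueField O] (Fin g → ResidueField O) :=
    Fintype.linearCombination (ResidueField O) fun l => lin (G (MvPowerSeries.X l))
  have hΦ : Function.Surjective Φ := by
    intro c
    set b : MvPowerSeries (Fin g) (ResidueField O) :=
      ∑ l, MvPowerSeries.C (c l) * MvPowerSeries.X l with hb
    obtain ⟨u, hu⟩ := hG b
    obtain ⟨e, he⟩ := Ideal.mem_span_range_iff_exists_fun.1
      (P5.sub_C_constantCoeff_mem_span_X u)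
    refine ⟨fun l => MvPowerSeries.constantCoeff (G (e l)), ?_⟩
    have h1 : b = algebraMap O _ (MvPowerSeries.constantCoeff u) +
        ∑ l, G (e l) * G (MvPowerSeries.X l) := by
      rw [← hu]
      conv_lhs => rw [← sub_add_cancel u (MvPowerSeries.C (MvPowerSeries.constantCoeff u)), ← he]
      rw [map_add, map_sum, add_comm]
      congr 1
      · exact G.commutes _
      · exact Finset.sum_congr rfl fun l _ => map_mul G _ _
    have h2 : lin b = c := by
      ext l
      simp only [lin, hb, map_sum, MvPowerSeries.coeff_C_mul, MvPowerSeries.coeff_X]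
      simp [Finsupp.single_left_inj]
    have h3 : lin b = ∑ l, MvPowerSeries.constantCoeff (G (e l)) • lin (G (MvPowerSeries.X l)) := by
      rw [h1]
      ext i
      simp only [lin, map_add, map_sum, Finset.sum_apply]
      have h4 : MvPowerSeries.coeff (Finsupp.single i 1)
          (algebraMap O (MvPowerSeries (Fin g) (ResidueField O))
            (MvPowerSeries.constantCoeff u)) = 0 := by
        rw [MvPowerSeries.algebraMap_apply, MvPowerSeries.coeff_C, if_neg (by simp)]
      rw [h4, zero_add]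
      exact Finset.sum_congr rfl fun l _ => congrFun (hmul (G (e l)) _ (hX l)) i
    rw [Fintype.linearCombination_apply, ← h3, h2]
  simpa using LinearMap.finrank_le_finrank_of_surjective (f := Φ) hΦ

section Model

variable {k g : ℕ} (γ : P5.Loc O k g →ₐ[O] Ser O n) (I : Ideal (Ser O n))

/-- A prime of the local model pushed to the patched ring. -/
def push (π : Ideal (P5.Loc O k g)) : Ideal (Ser O n) :=
  (π.map ((Ideal.Quotient.mkₐ O I).comp γ)).comap (Ideal.Quotient.mkₐ O I)

variable {γ I} (hsurj : Function.Surjective ((Ideal.Quotient.mkₐ O I).comp γ))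

include hsurj in
theorem exists_model_lift (x : Ser O n) : ∃ y, x - γ y ∈ I := by
  obtain ⟨y, hy⟩ := hsurj (Ideal.Quotient.mk I x)
  exact ⟨y, (Ideal.Quotient.eq).1 hy.symm⟩

theorem le_push (π : Ideal (P5.Loc O k g)) : I ≤ push γ I π := fun x hx => by
  rw [push, Ideal.mem_comap, Ideal.Quotient.mkₐ_eq_mk, Ideal.Quotient.eq_zero_iff_mem.2 hx]
  exact zero_mem _

include hsurj in
theorem mem_push_iff {π : Ideal (P5.Loc O k g)}
    (hker : RingHom.ker ((Ideal.Quotient.mkₐ O I).comp γ) ≤ π) (y : P5.Loc O k g) :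
    γ y ∈ push γ I π ↔ y ∈ π := by
  have h := Ideal.comap_map_of_surjective ((Ideal.Quotient.mkₐ O I).comp γ) hsurj π
  constructor
  · intro hy
    have h1 : y ∈ (π.map ((Ideal.Quotient.mkₐ O I).comp γ)).comap
        ((Ideal.Quotient.mkₐ O I).comp γ) := hy
    rw [h] at h1
    refine (sup_le (le_refl π) ?_ : π ⊔ Ideal.comap ((Ideal.Quotient.mkₐ O I).comp γ) ⊥ ≤ π) h1
    rw [← RingHom.ker_eq_comap_bot]
    exact hker
  · intro hy
    exact Ideal.mem_map_of_mem _ hy

include hsurj in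
theorem isPrime_push {π : Ideal (P5.Loc O k g)} (hπ : π.IsPrime)
    (hker : RingHom.ker ((Ideal.Quotient.mkₐ O I).comp γ) ≤ π) : (push γ I π).IsPrime :=
  haveI := Ideal.map_isPrime_of_surjective hsurj hker
  Ideal.IsPrime.comap _

include hsurj in
theorem le_push_of_comap_le {π : Ideal (P5.Loc O k g)} {Q : Ideal (Ser O n)} (hIQ : I ≤ Q)
    (h : Q.comap γ ≤ π) : Q ≤ push γ I π := fun x hx => by
  obtain ⟨y, hy⟩ := exists_model_lift hsurj x
  have h1 : γ y ∈ push γ I π := Ideal.mem_map_of_mem _ (h (Ideal.mem_comap.2 (by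
    have := sub_mem hx (hIQ hy)
    rwa [sub_sub_cancel] at this)))
  have := add_mem (le_push π hy) h1
  rwa [sub_add_cancel] at this

theorem ker_le_comap {Q : Ideal (Ser O n)} (hIQ : I ≤ Q) :
    RingHom.ker ((Ideal.Quotient.mkₐ O I).comp γ) ≤ Q.comap γ := fun x hx =>
  Ideal.mem_comap.2 (hIQ (Ideal.Quotient.eq_zero_iff_mem.1 hx))

/-- Setting all coordinates at the scalar primes to zero, modulo the maximal ideal. -/
def redG : P5.Loc O k g →+* MvPowerSeries (Fin g) (ResidueField O) :=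
  (MvPowerSeries.map (residue O)).comp
    ((MvPowerSeries.killCompl (R := O) (Function.Embedding.inr : Fin g ↪ P5.BaseVar k g)).comp
      P5.toBaseLoc).toRingHom

theorem redG_surjective : Function.Surjective (redG (O := O) (k := k) (g := g)) := by
  intro b
  choose c hc using fun e => residue_surjective (R := O) (MvPowerSeries.coeff e b)
  let b' : MvPowerSeries (Fin g) O := fun e => c e
  refine ⟨P5.ofBase (MvPowerSeries.rename Function.Embedding.inr b'), ?_⟩
  show MvPowerSeries.map (residue O) (MvPowerSeries.killCompl _ (P5.toBaseLoc (P5.ofBase _))) = b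
  rw [P5.toBaseLoc_ofBase, MvPowerSeries.killCompl_rename_app]
  ext e
  rw [MvPowerSeries.coeff_map]
  exact hc e

/-- The prime where all coordinates at the scalar primes vanish. -/
def P3 : Ideal (P5.Loc O k g) := RingHom.ker redG

instance : (P3 : Ideal (P5.Loc O k g)).IsPrime :=
  haveI : IsDomain (MvPowerSeries (Fin g) (ResidueField O)) := NoZeroDivisors.to_isDomain _
  RingHom.ker_isPrime redG

theorem PA_le_P3 : (P5.PA : Ideal (P5.Loc O k g)) ≤ P3 := fun x hx => by
  rw [P3, RingHom.mem_ker]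
  have h : MvPowerSeries.map (residue O) (P5.toBaseLoc x) = 0 := hx
  show MvPowerSeries.map (residue O) (MvPowerSeries.killCompl _ (P5.toBaseLoc x)) = 0
  ext e
  rw [MvPowerSeries.coeff_map, MvPowerSeries.coeff_killCompl, map_zero]
  have := congrArg (MvPowerSeries.coeff (e.embDomain Function.Embedding.inr)) h
  rwa [MvPowerSeries.coeff_map, map_zero] at this

theorem Uc_mem_P3 (t : Fin k) (i : Fin 3) : (P5.Uc t i : P5.Loc O k g) ∈ P3 := by
  rw [P3, RingHom.mem_ker]
  show MvPowerSeries.map (residue O) (MvPowerSeries.killCompl _ (P5.toBaseLoc (P5.Uc t i))) = 0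
  have h1 : P5.toBaseLoc (P5.Uc t i : P5.Loc O k g) = MvPowerSeries.X (Sum.inl (t, i)) :=
    MvPowerSeries.killCompl_X (e := (Function.Embedding.inr : P5.BaseVar k g ↪ P5.LocVar k g))
      (Sum.inl (t, i))
  rw [h1, MvPowerSeries.killCompl_X_eq_zero (by simp), map_zero]

end Model

variable [IsAdicComplete (maximalIdeal O) O] [Finite (ResidueField O)]

/-- A prime of the local model on the curve, meeting the base in the multiples of the maximal
ideal, lies below `P3`. -/
theorem le_P3 {k g : ℕ} {δ : O} (hδ : δ ∈ maximalIdeal O) {π : Ideal (P5.Loc O k g)}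
    (hπ : π.IsPrime) (hcurve : P5.curveIdeal δ ≤ π)
    (hbase : ∀ x, P5.ofBase x ∈ π → MvPowerSeries.map (residue O) x = 0) : π ≤ P3 := by
  let ι : MvPowerSeries (P5.BaseVar k g) O →+* P5.Loc O k g ⧸ π :=
    (Ideal.Quotient.mk π).comp P5.ofBase.toRingHom
  letI : Algebra (MvPowerSeries (P5.BaseVar k g) O) (P5.Loc O k g ⧸ π) := ι.toAlgebra
  have : Algebra.IsIntegral (MvPowerSeries (P5.BaseVar k g) O) (P5.Loc O k g ⧸ π) := by
    refine ⟨RingHom.Finite.to_isIntegral ?_⟩
    have h1 := (P5.finite_quotient_curveIdeal (k := k) (g := g) hδ).1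
    have h2 : (Ideal.Quotient.factor hcurve).comp ((Ideal.Quotient.mk (P5.curveIdeal δ)).comp
        P5.ofBase.toRingHom) = ι := RingHom.ext fun x => Ideal.Quotient.factor_mk hcurve _
    show ι.Finite
    rw [← h2]
    exact (RingHom.Finite.of_surjective _ (Ideal.Quotient.factor_surjective hcurve)).comp h1
  set pb : Ideal (MvPowerSeries (P5.BaseVar k g) O) :=
    (P3 : Ideal (P5.Loc O k g)).comap P5.ofBase.toRingHom
  obtain ⟨m, -, hm, hmb⟩ := Ideal.exists_ideal_over_prime_of_isIntegral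
    (S := P5.Loc O k g ⧸ π) pb ⊥ (fun x hx => by
      have h1 : P5.ofBase x ∈ π :=
        Ideal.Quotient.eq_zero_iff_mem.1 (Ideal.mem_bot.1 (Ideal.mem_comap.1 hx))
      refine Ideal.mem_comap.2 (PA_le_P3 ?_)
      show P5.redPA (P5.ofBase x) = 0
      show MvPowerSeries.map (residue O) (P5.toBaseLoc (P5.ofBase x)) = 0
      rw [P5.toBaseLoc_ofBase]
      exact hbase x h1)
  set M : Ideal (P5.Loc O k g) := m.comap (Ideal.Quotient.mk π)
  have hM : M.IsPrime := hm.comap _
  have hπM : π ≤ M := fun x hx => by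
    rw [Ideal.mem_comap, Ideal.Quotient.eq_zero_iff_mem.2 hx]; exact zero_mem _
  have hMb : ∀ x, P5.ofBase x ∈ (P3 : Ideal (P5.Loc O k g)) → P5.ofBase x ∈ M := fun x hx => by
    have h1 : x ∈ m.comap (algebraMap _ (P5.Loc O k g ⧸ π)) := hmb ▸ hx
    exact h1
  have hC : ∀ a ∈ maximalIdeal O, (MvPowerSeries.C a : P5.Loc O k g) ∈ M := fun a ha => by
    rw [← P5.ofBase_C]
    refine hMb _ ?_
    rw [P5.ofBase_C]
    exact PA_le_P3 (P5.C_mem_PA ha)
  have hU : ∀ t i, (P5.Uc t i : P5.Loc O k g) ∈ M := fun t i => by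
    have h1 : P5.ofBase (MvPowerSeries.X (Sum.inl (t, i))) = (P5.Uc t i : P5.Loc O k g) :=
      P5.ofBase_X _
    rw [← h1]
    refine hMb _ ?_
    rw [h1]
    exact Uc_mem_P3 t i
  have hX : ∀ t i, (P5.Xc t i : P5.Loc O k g) ∈ M := by
    intro t
    have hq : P5.qf (P5.Xc t) ∈ M := by
      have := add_mem (hπM (hcurve (P5.curveRel_mem_curveIdeal δ t)))
        (hC (δ ^ 2) (Ideal.pow_mem_of_mem _ hδ 2 two_pos))
      simpa [P5.curveRel] using this
    have h01 := hπM (hcurve (P5.minor_mem_curveIdeal δ t 0 1))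
    have h02 := hπM (hcurve (P5.minor_mem_curveIdeal δ t 0 2))
    have h12 := hπM (hcurve (P5.minor_mem_curveIdeal δ t 1 2))
    rw [← Ideal.Quotient.eq_zero_iff_mem] at hq h01 h02 h12
    have hu : ∀ i, Ideal.Quotient.mk M (P5.Uc t i) = 0 := fun i =>
      Ideal.Quotient.eq_zero_iff_mem.2 (hU t i)
    simp only [P5.minor, P5.Yc, P5.qf, P5.shift, map_sub, map_mul, map_add, map_pow, hu,
      Matrix.cons_val_zero, Matrix.cons_val_one, Matrix.cons_val, map_zero] at h01 h02 h12 hq
    obtain ⟨ha, hb, he⟩ := P5.pow_four_eq_zero (a := Ideal.Quotient.mk M (P5.Xc t 0))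
      (b := Ideal.Quotient.mk M (P5.Xc t 1)) (e := Ideal.Quotient.mk M (P5.Xc t 2))
      (by linear_combination -h01) (by linear_combination -h02) (by linear_combination -h12) hq
    rw [← map_pow, Ideal.Quotient.eq_zero_iff_mem] at ha hb he
    intro i
    fin_cases i
    exacts [hM.mem_of_pow_mem 4 ha, hM.mem_of_pow_mem 4 hb, hM.mem_of_pow_mem 4 he]
  intro x hx
  have hspan : Ideal.span (Set.range fun v : Fin k × Fin 3 => (P5.Xc v.1 v.2 : P5.Loc O k g)) ≤
      M ⊓ P3 := Ideal.span_le.2 (by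
    rintro _ ⟨v, rfl⟩
    exact ⟨hX v.1 v.2, PA_le_P3 (P5.Xc_mem_PA v.1 v.2)⟩)
  have h1 : P5.ofBase (P5.toBaseLoc x) ∈ M := by
    have := sub_mem (hπM hx) (hspan (P5.sub_ofBase_mem x)).1
    rwa [sub_sub_cancel] at this
  have h2 : P5.toBaseLoc x ∈ pb := by
    rw [← hmb]
    exact h1
  have := add_mem (hspan (P5.sub_ofBase_mem x)).2 (Ideal.mem_comap.1 h2)
  rwa [AlgHom.toRingHom_eq_coe, RingHom.coe_coe, sub_add_cancel] at this

/-- A component meets the base of the local model trivially once it lies below a prime which meets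
it in the multiples of the maximal ideal. -/
theorem base_trivial {k g : ℕ} (M : Patched O n s) {Q : Ideal (Ser O n)} (hQ : M.IsComp Q)
    {γ : P5.Loc O k g →ₐ[O] Ser O n} {π : Ideal (P5.Loc O k g)} (hle : Q.comap γ ≤ π)
    (hπ : ∀ x, P5.ofBase x ∈ π → MvPowerSeries.map (residue O) x = 0) :
    ∀ x, P5.ofBase x ∈ Q.comap γ → x = 0 := by
  classical
  intro x hx
  by_contra hne
  obtain ⟨ϖ, hϖ⟩ := IsDiscreteValuationRing.exists_irreducible O
  have hQp : Q.IsPrime := hQ.1.1
  have : IsDomain (MvPowerSeries (P5.BaseVar k g) O) := NoZeroDivisors.to_isDomain _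
  have hnotC : MvPowerSeries.C ϖ ∉ Q := by
    intro hmem
    obtain ⟨Q', hQ', hQ'Q⟩ := Patched.exists_lift hQ
    obtain ⟨-, hgi⟩ := Patched.ringKrullDim_component hQ'
    have h0 : (MvPowerSeries.C ϖ : Ser O s) = 0 := hgi (by
      rw [map_zero, RingHom.comp_apply, ← M.toAlg_C, Ideal.Quotient.eq_zero_iff_mem]
      exact Ideal.mem_comap.1 (hQ'Q ▸ hmem))
    exact hϖ.ne_zero (by simpa using congrArg MvPowerSeries.constantCoeff h0)
  have hdiv : ∀ y, P5.ofBase y ∈ Q.comap γ →
      ∃ y', P5.ofBase y' ∈ Q.comap γ ∧ y = MvPowerSeries.C ϖ * y' := by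
    intro y hy
    have h1 : P5.ofBase y ∈ (P5.PA : Ideal (P5.Loc O k g)) := by
      show MvPowerSeries.map (residue O) (P5.toBaseLoc (P5.ofBase y)) = 0
      rw [P5.toBaseLoc_ofBase]
      exact hπ y (hle hy)
    obtain ⟨y', hy'⟩ := P5.comap_ofBase_PA h1 hϖ
    refine ⟨y', ?_, hy'⟩
    rw [Ideal.mem_comap, hy', map_mul, map_mul, P5.ofBase_C,
      show γ (MvPowerSeries.C ϖ) = MvPowerSeries.C ϖ from γ.commutes ϖ] at hy
    exact Ideal.mem_comap.2 ((hQp.mem_or_mem hy).resolve_left hnotC)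
  have hiter : ∀ N : ℕ, ∃ y, P5.ofBase y ∈ Q.comap γ ∧ x = MvPowerSeries.C ϖ ^ N * y := by
    intro N
    induction N with
    | zero => exact ⟨x, hx, by rw [pow_zero, one_mul]⟩
    | succ N ih =>
      obtain ⟨y, hy, hxy⟩ := ih
      obtain ⟨y', hy', rfl⟩ := hdiv y hy
      exact ⟨y', hy', by rw [hxy, pow_succ, mul_assoc]⟩
  refine hne (MvPowerSeries.ext fun e => ?_)
  rw [map_zero]
  refine IsHausdorff.haus (I := maximalIdeal O) inferInstance _ fun N => ?_
  obtain ⟨y, -, hxy⟩ := hiter N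
  rw [SModEq.zero, smul_eq_mul, Ideal.mul_top, hϖ.maximalIdeal_eq, Ideal.span_singleton_pow,
    hxy, ← map_pow, MvPowerSeries.coeff_C_mul]
  exact Ideal.mul_mem_right _ _ (Ideal.mem_span_singleton_self _)

end FLTAgent.ModLift.Lift
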