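import Fermat.Agent.ModLift.Lift.SupportMain

/-!
# The point lies in the support of the last module
-/

set_option autoImplicit false
set_option linter.unusedSectionVars false
set_option maxHeartbeats 1000000

noncomputable section

open IsLocalRing

namespace FLTAgent.ModLift.Lift

open FLTAgent.ModLift.Patch FLTAgent.Lowering

variable {O : Type} [CommRing O] [IsDomain O] [IsDiscreteValuationRing O]
  [IsAdicComplete (maximalIdeal O) O] [Finite (ResidueField O)] {n s : ℕ}

/-- Setting the coordinates at the scalar primes to zero: the base maps onto the quotient. -/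
theorem finite_span_Xc {k g : ℕ} :
    ((Ideal.Quotient.mk (Ideal.span (Set.range fun v : Fin k × Fin 3 =>
      (P5.Xc v.1 v.2 : P5.Loc O k g)))).comp P5.ofBase.toRingHom).Finite :=
  RingHom.Finite.of_surjective _ fun b => by
    obtain ⟨y, rfl⟩ := Ideal.Quotient.mk_surjective b
    exact ⟨P5.toBaseLoc y, (Ideal.Quotient.eq.2 (P5.sub_ofBase_mem y)).symm⟩

/-- A component containing a pattern which is finite over the base meets the base trivially. -/
theorem base_injective {k g : ℕ} (hs : s = 3 * k + g) (M : Patched O n s) {q I : Ideal (Ser O n)}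
    (hq : M.IsComp q) (hI : I ≤ q) {γ : P5.Loc O k g →ₐ[O] Ser O n}
    (hsurj : Function.Surjective ((Ideal.Quotient.mkₐ O I).comp γ))
    {J : Ideal (P5.Loc O k g)} (hJ : J ≤ q.comap γ)
    (hfin : ((Ideal.Quotient.mk J).comp P5.ofBase.toRingHom).Finite) :
    ∀ x, P5.ofBase x ∈ q.comap γ → x = 0 := by
  obtain ⟨Q, hQ, rfl⟩ := Patched.exists_lift hq
  have : Q.IsPrime := hQ.1.1
  set φ : P5.Loc O k g ⧸ J →+* M.alg ⧸ Q :=
    Ideal.Quotient.lift _ ((Ideal.Quotient.mk Q).comp (M.toAlg.comp γ.toRingHom))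
      fun x hx => Ideal.Quotient.eq_zero_iff_mem.2 (hJ hx)
  have hφ : φ.Finite := by
    refine RingHom.Finite.of_comp_finite (f := Ideal.Quotient.mk _) ?_
    rw [Ideal.Quotient.lift_comp_mk]
    set ψ : Ser O n ⧸ I →+* M.alg ⧸ Q :=
      Ideal.Quotient.lift _ ((Ideal.Quotient.mk Q).comp M.toAlg)
        fun x hx => Ideal.Quotient.eq_zero_iff_mem.2 (hI hx)
    have hψ : ψ.Finite := RingHom.Finite.of_comp_finite (f := Ideal.Quotient.mk _) (by
      rw [Ideal.Quotient.lift_comp_mk]; exact Patched.finite_component hQ)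
    have heq : (Ideal.Quotient.mk Q).comp (M.toAlg.comp γ.toRingHom) =
        ψ.comp ((Ideal.Quotient.mkₐ O _).comp γ).toRingHom := RingHom.ext fun x => rfl
    rw [heq]
    exact hψ.comp (RingHom.Finite.of_surjective _ hsurj)
  obtain ⟨hgf, hgi⟩ := Patched.ringKrullDim_component hQ
  have e : P5.BaseVar k g ≃ Fin s := Fintype.equivFinOfCardEq (by
    simp only [P5.BaseVar, Fintype.card_sum, Fintype.card_prod, Fintype.card_fin]
    omega)
  have : IsDomain (MvPowerSeries (P5.BaseVar k g) O) := NoZeroDivisors.to_isDomain _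
  have hinj := P5.injective_of_finite (MvPowerSeries.renameEquiv O e).toRingEquiv
    (φ.comp ((Ideal.Quotient.mk J).comp P5.ofBase.toRingHom)) (hφ.comp hfin) _ hgf hgi
  intro x hx
  refine hinj ?_
  rw [map_zero]
  exact Ideal.Quotient.eq_zero_iff_mem.2 hx

theorem map_frobenius_coord {k g : ℕ} {ix iu : Fin k → Fin 3 → Fin n}
    {γ : P5.Loc O k g →ₐ[O] Ser O n}
    (hX : ∀ t i, γ (P5.Xc t i) = MvPowerSeries.X (ix t i))
    (hU : ∀ t i, γ (P5.Uc t i) = MvPowerSeries.X (iu t i)) (t : Fin k) (i : Fin 3) :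
    γ (P5.Yc t i) = frobVec O ix iu t i := by
  rw [P5.Yc, map_sub, hU, frobVec]
  congr 1
  fin_cases i <;> simp [P5.shift, hX]

/-- A prime meeting the base in the multiples of the maximal ideal does not contain `qf Y - c`
at a prime where it contains the inertia coordinates. -/
theorem qf_Yc_notMem {k g : ℕ} {π : Ideal (P5.Loc O k g)}
    (hπ : ∀ x, P5.ofBase x ∈ π → MvPowerSeries.map (residue O) x = 0) {t : Fin k}
    (hX : ∀ i, P5.Xc t i ∈ π) {c : O} (hc : c ∈ maximalIdeal O) :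
    P5.qf (P5.Yc t) - MvPowerSeries.C c ∉ π := by
  intro h
  set x0 : MvPowerSeries (P5.BaseVar k g) O :=
    P5.qf (fun i => MvPowerSeries.X (Sum.inl (t, i))) - MvPowerSeries.C c
  have hY : ∀ i, Ideal.Quotient.mk π (P5.Yc t i) =
      Ideal.Quotient.mk π (P5.ofBase (MvPowerSeries.X (Sum.inl (t, i)))) := fun i => by
    have h0 : ∀ j, Ideal.Quotient.mk π (P5.Xc t j) = 0 := fun j =>
      Ideal.Quotient.eq_zero_iff_mem.2 (hX j)
    rw [P5.Yc, map_sub, P5.ofBase_X]
    have hs : Ideal.Quotient.mk π (P5.shift (P5.Xc t) i) = 0 := by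
      fin_cases i <;> simp [P5.shift, h0]
    rw [hs, sub_zero]
    rfl
  have h1 : P5.ofBase x0 ∈ π := by
    rw [← Ideal.Quotient.eq_zero_iff_mem] at h ⊢
    simp only [x0, P5.qf, map_sub, map_add, map_mul, map_pow, P5.ofBase_C] at h ⊢
    simp only [hY] at h
    exact h
  have h2 : P5.toBaseLoc (P5.qf (P5.Yc t) - MvPowerSeries.C c : P5.Loc O k g) = x0 := by
    rw [map_sub, ← P5.ofBase_C, P5.toBaseLoc_ofBase]
    simp only [x0, P5.qf, map_add, map_mul, map_pow, P5.toBaseLoc_Yc]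
  refine P5.qf_Yc_sub_notMem_PA (k := k) (g := g) t hc ?_
  show MvPowerSeries.map (residue O) (P5.toBaseLoc _) = 0
  rw [h2]
  exact hπ x0 h1

namespace Input

variable (D : Input O n s)

/-- The pattern of the last step. -/
def last : Ideal (Ser O n) :=
  (RingHom.ker (D.node D.m).act ⊓ RingHom.ker D.tw1.act ⊓ RingHom.ker D.pt) ⊔
    Ideal.span (upTo D.st D.m)

theorem last_le_ker_pt : D.last ≤ RingHom.ker D.pt :=
  sup_le inf_le_right (Ideal.span_le.2 fun x ⟨z, hz, hx⟩ => D.pt_st z hz x hx)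

/-- No prime below the vanishing of all scalar coordinates contains an unramified pattern. -/
theorem excl {γ : P5.Loc O D.k D.g →ₐ[O] Ser O n}
    (hγX : ∀ t i, γ (P5.Xc t i) = MvPowerSeries.X (D.ix t i))
    (hγU : ∀ t i, γ (P5.Uc t i) = MvPowerSeries.X (D.iu t i))
    (hsurj : Function.Surjective ((Ideal.Quotient.mkₐ O D.last).comp γ))
    {π : Ideal (P5.Loc O D.k D.g)}
    (hker : RingHom.ker ((Ideal.Quotient.mkₐ O D.last).comp γ) ≤ π) (hπ : π ≤ P3)
    {z : ℕ} (hz : z < D.m) : ¬ D.unr z ⊆ (push γ D.last π : Set (Ser O n)) := by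
  intro hsub
  have hk3 := hker.trans hπ
  set P := push γ D.last (P3 : Ideal (P5.Loc O D.k D.g)) with hPdef
  have hmem : ∀ y, γ y ∈ P ↔ y ∈ (P3 : Ideal (P5.Loc O D.k D.g)) := mem_push_iff hsurj hk3
  have hIP : D.last ≤ P := le_push _
  have hmono : push γ D.last π ≤ P := Ideal.comap_mono (Ideal.map_mono hπ)
  obtain ⟨G, hG⟩ := D.genT1Excl z hz
  have hle : (RingHom.ker (D.node D.m).act ⊓ RingHom.ker D.tw1.act ⊓ RingHom.ker D.pt) ⊔
      Ideal.span (varSet O D.ix ∪ varSet O D.iu ∪ upTo D.st D.m ∪ D.unr z) ≤ P := by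
    refine sup_le (le_sup_left.trans hIP) (Ideal.span_le.2 ?_)
    rintro x (((⟨v, rfl⟩ | ⟨v, rfl⟩) | hx) | hx)
    · show MvPowerSeries.X (D.ix v.1 v.2) ∈ P
      rw [← hγX, hmem]
      exact PA_le_P3 (P5.Xc_mem_PA _ _)
    · show MvPowerSeries.X (D.iu v.1 v.2) ∈ P
      rw [← hγU, hmem]
      exact Uc_mem_P3 _ _
    · exact hIP (Ideal.mem_sup_right (Ideal.subset_span hx))
    · exact hmono (hsub hx)
  set ψ : P5.Loc O D.k D.g →+* Ser O n ⧸ P := (Ideal.Quotient.mk P).comp γ.toRingHom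
  have hψ : Function.Surjective ψ := fun b => by
    obtain ⟨x, rfl⟩ := Ideal.Quotient.mk_surjective b
    obtain ⟨y, hy⟩ := exists_model_lift hsurj x
    exact ⟨y, (Ideal.Quotient.eq.2 (hIP hy)).symm⟩
  have hψker : RingHom.ker ψ ≤ RingHom.ker (redG (O := O) (k := D.k) (g := D.g)) := fun y hy =>
    (hmem y).1 (Ideal.Quotient.eq_zero_iff_mem.1 hy)
  set Φ : Ser O n ⧸ P →+* MvPowerSeries (Fin D.g) (ResidueField O) :=
    ψ.liftOfSurjective hψ ⟨redG, hψker⟩
  have hΦ : ∀ y, Φ (ψ y) = redG y := fun y => ψ.liftOfRightInverse_comp_apply _ _ _ y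
  let H : Ser O (D.g - 1) →ₐ[O] MvPowerSeries (Fin D.g) (ResidueField O) :=
    { toRingHom := Φ.comp ((Ideal.Quotient.factor hle).comp G.toRingHom)
      commutes' := fun a => by
        show Φ (Ideal.Quotient.factor hle (G (algebraMap O _ a))) = _
        rw [G.commutes]
        show Φ (Ideal.Quotient.mk P (algebraMap O (Ser O n) a)) = _
        rw [← γ.commutes]
        show Φ (ψ _) = _
        rw [hΦ]
        show MvPowerSeries.map (residue O) (MvPowerSeries.killCompl _ (P5.toBaseLoc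
          (algebraMap O (P5.Loc O D.k D.g) a))) = _
        rw [AlgHom.commutes, AlgHom.commutes, MvPowerSeries.algebraMap_apply,
          MvPowerSeries.algebraMap_apply, MvPowerSeries.map_C]
        rfl }
  have hH : Function.Surjective H := by
    have hΦs : Function.Surjective Φ := fun b => by
      obtain ⟨y, hy⟩ := redG_surjective (O := O) (k := D.k) (g := D.g) b
      exact ⟨ψ y, (hΦ y).trans hy⟩
    exact hΦs.comp ((Ideal.Quotient.factor_surjective hle).comp hG)
  have := le_of_surjective_residue H hH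
  have := D.g_two
  omega

/-- The Steinberg patterns hold on a component through a prime without unramified patterns. -/
theorem st_of_le {γ : P5.Loc O D.k D.g →ₐ[O] Ser O n}
    (hγX : ∀ t i, γ (P5.Xc t i) = MvPowerSeries.X (D.ix t i))
    (hγU : ∀ t i, γ (P5.Uc t i) = MvPowerSeries.X (D.iu t i))
    (hsurj : Function.Surjective ((Ideal.Quotient.mkₐ O D.last).comp γ))
    {π : Ideal (P5.Loc O D.k D.g)} (hπp : π.IsPrime)
    (hker : RingHom.ker ((Ideal.Quotient.mkₐ O D.last).comp γ) ≤ π) (hπ : π ≤ P3)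
    {Q : Ideal (Ser O n)} (hQ : Q.IsPrime)
    (hQker : RingHom.ker (D.node D.m).act ≤ Q ∨ RingHom.ker D.tw1.act ≤ Q)
    (hQP : Q ≤ push γ D.last π) {z : ℕ} (hz : z < D.m) : D.st z ⊆ (Q : Set (Ser O n)) := by
  have hno := D.excl hγX hγU hsurj hker hπ hz
  rcases D.split D.m le_rfl z hz Q hQ (hQker.imp id fun h => ⟨rfl, h⟩) with h | h | h
  · exact absurd (fun x hx => hQP (h hx)) hno
  · exact h
  · refine absurd (h.2 _ (isPrime_push hsurj hπp hker) hQP fun x hx => ?_) hno
    exact le_push π (Ideal.mem_sup_right (Ideal.subset_span ⟨z, hz, hx⟩))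

/-- The point lies in the support of the last module. -/
theorem inSupp (hPlane : TargetPlane) (h2 : (2 : ResidueField O) ≠ 0) :
    (D.node D.m).InSupp (RingHom.ker D.pt) := by
  classical
  obtain ⟨γ, hγX, hγU, hsurj⟩ := exists_model (k := D.k) (g := D.g) D.ix D.iu (I := D.last)
    (genBound_le (by
      refine sup_le (le_sup_of_le_left le_sup_left) (Ideal.span_le.2 ?_)
      rintro x ((⟨v, rfl⟩ | ⟨v, rfl⟩) | hx)
      · exact Ideal.mem_sup_right (Ideal.subset_span (Or.inl ⟨v, rfl⟩))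
      · exact Ideal.mem_sup_right (Ideal.subset_span (Or.inr ⟨v, rfl⟩))
      · exact Ideal.mem_sup_left (Ideal.mem_sup_right (Ideal.subset_span hx))) D.genT1)
  have hγY := map_frobenius_coord hγX hγU
  have hγqX : ∀ t, γ (P5.qf (P5.Xc t)) =
      P5.qf (fun j => (MvPowerSeries.X (D.ix t j) : Ser O n)) := fun t => by
    simp only [P5.qf, map_add, map_mul, map_pow, hγX]
  have hγC : ∀ a : O, γ (MvPowerSeries.C a) = MvPowerSeries.C a := γ.commutes
  have hγqY : ∀ t, γ (P5.qf (P5.Yc t) - MvPowerSeries.C (D.h t ^ 2)) =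
      P5.qf (frobVec O D.ix D.iu t) - MvPowerSeries.C (D.h t ^ 2) := fun t => by
    rw [map_sub, hγC]
    congr 1
    simp only [P5.qf, map_add, map_mul, map_pow, hγY]
  -- the unramified component
  have hQ1 := D.chain h2 D.m le_rfl
  have hQ1I : D.last ≤ D.pat D.m := sup_le_sup (inf_le_left.trans inf_le_left)
    (Ideal.span_mono Set.subset_union_right)
  have hQ1X : Ideal.span (Set.range fun v : Fin D.k × Fin 3 =>
      (P5.Xc v.1 v.2 : P5.Loc O D.k D.g)) ≤ (D.pat D.m).comap γ := Ideal.span_le.2 (by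
    rintro _ ⟨v, rfl⟩
    show γ (P5.Xc v.1 v.2) ∈ D.pat D.m
    rw [hγX]
    exact Ideal.mem_sup_right (Ideal.subset_span (Or.inl ⟨v, rfl⟩)))
  have hbase1 := base_injective D.s_eq (D.node D.m) hQ1 hQ1I hsurj hQ1X finite_span_Xc
  have hQ1A : (D.pat D.m).comap γ ≤ P5.PA := fun x hx => by
    have h0 : P5.toBaseLoc x = 0 := hbase1 _ (by
      have := sub_mem hx (hQ1X (P5.sub_ofBase_mem x))
      rwa [sub_sub_cancel] at this)
    show MvPowerSeries.map (residue O) (P5.toBaseLoc x) = 0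
    rw [h0, map_zero]
  have hkA := (ker_le_comap (γ := γ) hQ1I).trans hQ1A
  set P0 := push γ D.last (P5.PA : Ideal (P5.Loc O D.k D.g))
  have hP0m : ∀ y, γ y ∈ P0 ↔ y ∈ (P5.PA : Ideal (P5.Loc O D.k D.g)) := mem_push_iff hsurj hkA
  have hP0C : ∀ a ∈ maximalIdeal O, MvPowerSeries.C a ∈ P0 := fun a ha => by
    rw [← hγC, hP0m]
    exact P5.C_mem_PA ha
  have hP0 : D.tw1.InSupp P0 := (D.special1 P0 hP0C).1
    ⟨isPrime_push hsurj inferInstance hkA, hQ1.1.2.trans (le_push_of_comap_le hsurj hQ1I hQ1A)⟩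
  -- the twisted component
  have : P0.IsPrime := hP0.1
  obtain ⟨q, hq, hqP0⟩ := Ideal.exists_minimalPrimes_le hP0.2
  have hqp : q.IsPrime := hq.1.1
  have hqker : RingHom.ker D.tw1.act ≤ q := hq.1.2
  have hqI : D.last ≤ q := sup_le ((inf_le_left.trans inf_le_right).trans hqker)
    (Ideal.span_le.2 fun x ⟨z, hz, hx⟩ =>
      D.st_of_le hγX hγU hsurj inferInstance hkA PA_le_P3 hqp (Or.inr hqker) hqP0 hz hx)
  have hcurve : P5.curveIdeal D.δ ≤ q.comap γ := by
    rw [P5.curveIdeal, Ideal.span_le]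
    rintro _ (⟨v, rfl⟩ | ⟨t, rfl⟩)
    · refine Ideal.mem_comap.2 (mem_of_nilpotent hqp hqker ?_)
      rw [show γ (P5.minor v.1 v.2.1 v.2.2) =
          frobVec O D.ix D.iu v.1 v.2.1 * MvPowerSeries.X (D.ix v.1 v.2.2) -
            frobVec O D.ix D.iu v.1 v.2.2 * MvPowerSeries.X (D.ix v.1 v.2.1) by
        simp only [P5.minor, map_sub, map_mul, hγX, hγY]]
      exact D.minor true v.1 v.2.1 v.2.2
    · refine Ideal.mem_comap.2 (mem_of_nilpotent hqp hqker ?_)
      show IsNilpotent (D.tw1.act (γ (P5.qf (P5.Xc t) - MvPowerSeries.C (D.δ ^ 2))))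
      rw [map_sub, hγqX, hγC]
      exact D.curve true t
  have hq0 : P5.IsCurvePrime D.δ (q.comap γ) := ⟨Ideal.IsPrime.comap _, hcurve,
    base_trivial D.tw1 hq (π := P5.PA) (fun y hy => (hP0m y).1 (hqP0 hy)) fun x hx => by
      have h : MvPowerSeries.map (residue O) (P5.toBaseLoc (P5.ofBase x)) = 0 := hx
      rwa [P5.toBaseLoc_ofBase] at h⟩
  -- through the special fibre to the plane
  obtain ⟨huniq, hexist, hmeet⟩ := hPlane O h2 D.k D.g D.τ D.h D.h_mem D.h_ne
  obtain ⟨π, hπp, hqπ, hplane, hπC, hπX, hπb⟩ := hmeet D.δ D.δ_mem D.δ_ne _ hq0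
  have hπ3 : π ≤ P3 := le_P3 D.δ_mem hπp (hcurve.trans hqπ) hπb
  have hkπ := (ker_le_comap (γ := γ) hqI).trans hqπ
  set P1 := push γ D.last π
  have hP1m : ∀ y, γ y ∈ P1 ↔ y ∈ π := mem_push_iff hsurj hkπ
  have hP1 : (D.node D.m).InSupp P1 := (D.special1 P1 fun a ha => by
      rw [← hγC, hP1m]
      exact hπC a ha).2
    ⟨isPrime_push hsurj hπp hkπ, hqker.trans (le_push_of_comap_le hsurj hqI hqπ)⟩
  have : P1.IsPrime := hP1.1
  obtain ⟨Q, hQ, hQP1⟩ := Ideal.exists_minimalPrimes_le hP1.2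
  have hQp : Q.IsPrime := hQ.1.1
  have hQker : RingHom.ker (D.node D.m).act ≤ Q := hQ.1.2
  have hQI : D.last ≤ Q := sup_le ((inf_le_left.trans inf_le_left).trans hQker)
    (Ideal.span_le.2 fun x ⟨z, hz, hx⟩ =>
      D.st_of_le hγX hγU hsurj hπp hkπ hπ3 hQp (Or.inl hQker) hQP1 hz hx)
  have hQπ : Q.comap γ ≤ π := fun y hy => (hP1m y).1 (hQP1 hy)
  have hQpl : planeIdeal D.τ D.h ≤ Q.comap γ := by
    rw [planeIdeal, Ideal.span_le]
    rintro y (⟨t, i, ht, rfl⟩ | ⟨t, ht, hy⟩)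
    · show γ (P5.Xc t i) ∈ Q
      rw [hγX]
      rcases hQp.mem_or_mem (mem_of_nilpotent hQp hQker (D.plain D.m le_rfl t i)) with h | h
      · refine absurd ?_ (qf_Yc_notMem hπb (t := t) (fun j => hplane (Ideal.subset_span
          (Or.inl ⟨t, j, ht, rfl⟩))) (Ideal.pow_mem_of_mem _ (D.h_mem t) 2 two_pos))
        refine hQπ ?_
        show γ (P5.qf (P5.Yc t) - MvPowerSeries.C (D.h t ^ 2)) ∈ Q
        rwa [hγqY]
      · exact h
    · rcases D.steinberg t Q hQp hQker with h | ⟨h1, h2', h3⟩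
      · obtain ⟨i, hi⟩ := hπX t ht
        refine absurd (hQπ ?_) hi
        show γ (P5.Xc t i) ∈ Q
        rw [hγX]
        exact h i
      · rcases hy with rfl | rfl | ⟨i, rfl⟩
        · show γ (P5.qf (P5.Xc t)) ∈ Q
          rwa [hγqX]
        · show γ (P5.qf (P5.Yc t) - MvPowerSeries.C (D.h t ^ 2)) ∈ Q
          rwa [hγqY]
        · show γ (brk (P5.Yc t) (P5.Xc t) i - MvPowerSeries.C (2 * D.h t) * P5.Xc t i) ∈ Q
          rw [map_sub, map_mul, hγC, hγX]
          convert h3 i using 2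
          fin_cases i <;> simp [brk, hγX, hγY, map_ofNat]
  have hpl : IsPlanePrime D.τ D.h (Q.comap γ) :=
    ⟨Ideal.IsPrime.comap _, hQpl, base_trivial (D.node D.m) hQ hQπ hπb⟩
  -- the point
  obtain ⟨Q2, hQ2, hQ2w⟩ := hexist (D.pt.comp γ) (fun y hy => by
      induction hy using Submodule.span_induction with
      | mem y hy =>
        show D.pt (γ y) = 0
        rcases hy with ⟨t, i, ht, rfl⟩ | ⟨t, ht, rfl | rfl | ⟨i, rfl⟩⟩
        · rw [hγX]; exact D.pt_unr t ht i
        · rw [hγqX]; exact (D.pt_plane t ht).1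
        · rw [hγqY]; exact (D.pt_plane t ht).2.1
        · rw [map_sub, map_mul, hγC, hγX]
          convert (D.pt_plane t ht).2.2 i using 3
          fin_cases i <;> simp [brk, hγX, hγY, map_ofNat]
      | zero => exact map_zero _
      | add a b _ _ ha hb => rw [map_add, ha, hb, add_zero]
      | smul r a _ ha => rw [smul_eq_mul, map_mul, ha, mul_zero])
    fun t ht => (D.pt_ram t ht).imp fun i hi => by
      show D.pt (γ (P5.Xc t i)) ≠ 0
      rwa [hγX]
  refine ⟨RingHom.ker_isPrime _, fun x hx => ?_⟩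
  obtain ⟨y, hy⟩ := exists_model_lift hsurj x
  have hyQ : γ y ∈ Q := by
    have := sub_mem (hQker hx) (hQI hy)
    rwa [sub_sub_cancel] at this
  have h1 : D.pt (γ y) = 0 := hQ2w ((huniq _ _ hpl hQ2).le hyQ)
  have h0 : D.pt (x - γ y) = 0 := D.last_le_ker_pt hy
  rw [map_sub, h1, sub_zero] at h0
  exact h0

end Input

end FLTAgent.ModLift.Lift
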