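import Fermat.Agent.ModLift.Lift.Support

/-!
# The chain of components
-/

set_option autoImplicit false
set_option linter.unusedSectionVars false
set_option maxHeartbeats 1000000

noncomputable section

open IsLocalRing

namespace FLTAgent.ModLift.Lift

open FLTAgent.ModLift.Patch FLTAgent.Lowering

variable {O : Type} [CommRing O] [IsDomain O] [IsDiscreteValuationRing O]
  [IsAdicComplete (maximalIdeal O) O] [Finite (ResidueField O)] {n s : ℕ}

namespace Input

variable (D : Input O n s)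

/-- The pattern after `i` steps. -/
def pat (i : ℕ) : Ideal (Ser O n) :=
  RingHom.ker (D.node i).act ⊔ Ideal.span (varSet O D.ix ∪ upTo D.st i)

/-- The pattern with the element raising the level. -/
def cut (i : ℕ) : Ideal (Ser O n) :=
  RingHom.ker (D.node i).act ⊔ Ideal.span (varSet O D.ix ∪ upTo D.st i ∪ {D.f i})

theorem cut_eq (i : ℕ) : D.cut i = D.pat i ⊔ Ideal.span {D.f i} := by
  simp only [cut, pat, Ideal.span_union, sup_assoc]

/-- A series which dies in the cut has no base part: `qf Y - c` is not in it. -/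
theorem qf_notMem_cut {i : ℕ} (hi : i < D.m)
    (hinj : ∀ γ : Ser O (s - 1) →ₐ[O] Ser O n ⧸ D.cut i,
      Function.Surjective γ → Function.Injective γ) (t : Fin D.k) :
    P5.qf (frobVec O D.ix D.iu t) - MvPowerSeries.C (D.h t ^ 2) ∉ D.cut i := by
  intro hmem
  obtain ⟨γ, hγX, hγU, hsurj⟩ := exists_model (k := D.k) (g := D.g - 1) D.ix D.iu
    (I := D.cut i) (genBound_le (sup_le (le_sup_of_le_left le_sup_left) (Ideal.span_le.2 (by
      rintro x (((h | h) | h) | h)
      · exact Ideal.mem_sup_right (Ideal.subset_span (Or.inl h))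
      · exact Ideal.mem_sup_right (Ideal.subset_span (Or.inr h))
      · exact Ideal.mem_sup_left (Ideal.mem_sup_right (Ideal.subset_span (Or.inl (Or.inr h))))
      · exact Ideal.mem_sup_left (Ideal.mem_sup_right (Ideal.subset_span (Or.inr h))))))
      (D.genHypU i hi))
  have hg := D.g_two
  have e : P5.BaseVar D.k (D.g - 1) ≃ Fin (s - 1) := Fintype.equivFinOfCardEq (by
    have := D.s_eq
    simp only [P5.BaseVar, Fintype.card_sum, Fintype.card_prod, Fintype.card_fin]
    omega)
  set G : Ser O (s - 1) →ₐ[O] Ser O n ⧸ D.cut i :=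
    ((Ideal.Quotient.mkₐ O (D.cut i)).comp (γ.comp P5.ofBase)).comp
      (MvPowerSeries.renameEquiv O e.symm).toAlgHom with hG
  have hX : ∀ t l, γ (P5.Xc t l) ∈ D.cut i := fun t l => by
    rw [hγX]
    exact Ideal.mem_sup_right (Ideal.subset_span (Or.inl (Or.inl ⟨(t, l), rfl⟩)))
  have hmk : ∀ y, Ideal.Quotient.mk (D.cut i) (γ y) =
      Ideal.Quotient.mk (D.cut i) (γ (P5.ofBase (P5.toBaseLoc y))) := fun y => by
    rw [Ideal.Quotient.eq, ← map_sub]
    have h1 : Ideal.span (Set.range fun v : Fin D.k × Fin 3 =>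
        (P5.Xc v.1 v.2 : P5.Loc O D.k (D.g - 1))) ≤ (D.cut i).comap γ :=
      Ideal.span_le.2 (by rintro _ ⟨v, rfl⟩; exact hX v.1 v.2)
    exact h1 (P5.sub_ofBase_mem y)
  have hGs : Function.Surjective G := fun b => by
    obtain ⟨y, hy⟩ := hsurj b
    obtain ⟨u, hu⟩ := (MvPowerSeries.renameEquiv O e.symm).surjective (P5.toBaseLoc y)
    refine ⟨u, ?_⟩
    rw [← hy]
    show Ideal.Quotient.mk _ (γ (P5.ofBase ((MvPowerSeries.renameEquiv O e.symm) u))) = _
    rw [hu, ← hmk]
    rfl
  obtain ⟨u, hu⟩ := (MvPowerSeries.renameEquiv O e.symm).surjective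
    (P5.toBaseLoc (P5.qf (P5.Yc t) - MvPowerSeries.C (D.h t ^ 2) : P5.Loc O D.k (D.g - 1)))
  have h0 : G u = 0 := by
    show Ideal.Quotient.mk _ (γ (P5.ofBase ((MvPowerSeries.renameEquiv O e.symm) u))) = 0
    rw [hu, ← hmk, Ideal.Quotient.eq_zero_iff_mem]
    convert hmem
    rw [map_sub, show γ (MvPowerSeries.C (D.h t ^ 2)) = MvPowerSeries.C (D.h t ^ 2) from
      γ.commutes _]
    congr 1
    have hγY : ∀ l, γ (P5.Yc t l) = frobVec O D.ix D.iu t l := fun l => by
      rw [P5.Yc, map_sub, hγU, frobVec]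
      congr 1
      fin_cases l <;> simp [P5.shift, hγX]
    simp only [P5.qf, map_add, map_mul, map_pow, hγY]
  have hu0 : u = 0 := hinj G hGs (by rw [h0, map_zero])
  rw [hu0, map_zero] at hu
  refine P5.qf_Yc_sub_notMem_PA (k := D.k) (g := D.g - 1) t
    (Ideal.pow_mem_of_mem _ (D.h_mem t) 2 two_pos) ?_
  show P5.redPA _ = 0
  show MvPowerSeries.map (residue O) (P5.toBaseLoc _) = 0
  rw [← hu, map_zero]

/-- One step: the next level has the next pattern as a component. -/
theorem step {i : ℕ} (hi : i < D.m) (hQ : (D.node i).IsComp (D.pat i)) :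
    (D.node (i + 1)).IsComp (D.pat (i + 1)) := by
  classical
  have hs1 : 1 ≤ s := by
    have := D.s_eq; have := D.g_two; omega
  obtain ⟨s', rfl⟩ : ∃ s', s = s' + 1 := ⟨s - 1, by omega⟩
  obtain ⟨hP, hinj⟩ := targetHyper O n s' (D.node i) (D.pat i) (D.pat i) (D.f i) hQ le_rfl
    (D.genX i hi.le) (D.f_mem i hi) (by rw [← cut_eq]; exact D.genHyp i hi)
  rw [← cut_eq] at hP hinj
  have hPp : (D.cut i).IsPrime := hP.1
  have hC : ∀ a : O, MvPowerSeries.C a ∈ D.cut i → a = 0 := fun a ha => by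
    obtain ⟨γ, hγ⟩ := D.genHyp i hi
    have h1 : γ (MvPowerSeries.C a) = 0 := by
      rw [show γ (MvPowerSeries.C a) = Ideal.Quotient.mk _ (MvPowerSeries.C a) from γ.commutes a,
        Ideal.Quotient.eq_zero_iff_mem]
      exact ha
    have h2 := hinj γ hγ (h1.trans (map_zero γ).symm)
    simpa using congrArg MvPowerSeries.constantCoeff h2
  obtain ⟨Q, hQN, hold, hQP⟩ := targetRaise O n (s' + 1) (D.node i) (D.node (i + 1)) (D.pair i hi)
    (D.cut i) (Ideal.span (D.old i)) hP (by
      have h1 : Ideal.span {D.f i} ≤ D.cut i := cut_eq D i ▸ le_sup_right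
      exact h1 (D.det_f i hi)) (fun x hx => by
      induction hx using Submodule.span_induction with
      | mem y hy => exact D.old_range i hi y hy
      | zero => exact ⟨1, fun v => by simp⟩
      | add y z _ _ hy hz =>
        obtain ⟨a, ha⟩ := hy
        obtain ⟨b, hb⟩ := hz
        refine ⟨a + b, fun v => ?_⟩
        set A := (D.node (i + 1)).act y
        set B := (D.node (i + 1)).act z
        have hAB : Commute A B := by
          show A * B = B * A
          rw [← map_mul, mul_comm, map_mul]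
        rw [map_add, hAB.add_pow, Matrix.sum_mulVec]
        refine Submodule.sum_mem _ fun c hc => ?_
        rw [← nsmul_eq_mul', Matrix.smul_mulVec]
        refine Submodule.smul_of_tower_mem _ _ ?_
        rcases le_or_gt a c with hac | hac
        · obtain ⟨d, rfl⟩ := Nat.exists_eq_add_of_le hac
          rw [pow_add, mul_assoc, ← Matrix.mulVec_mulVec]
          exact ha _
        · have : b ≤ a + b - c := by omega
          obtain ⟨d, hd⟩ := Nat.exists_eq_add_of_le this
          rw [(hAB.pow_pow c (a + b - c)).eq, hd, pow_add, mul_assoc, ← Matrix.mulVec_mulVec]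
          exact hb _
      | smul r y _ hy =>
        obtain ⟨a, ha⟩ := hy
        refine ⟨a, fun v => ?_⟩
        rw [smul_eq_mul, mul_comm r y, map_mul, (show Commute ((D.node (i + 1)).act y)
          ((D.node (i + 1)).act r) by
            show _ * _ = _ * _
            rw [← map_mul, mul_comm, map_mul]).mul_pow, ← Matrix.mulVec_mulVec]
        exact ha _)
  have hQp : Q.IsPrime := hQN.1.1
  have hker : RingHom.ker (D.node (i + 1)).act ≤ Q := hQN.1.2
  have hX : ∀ t l, MvPowerSeries.X (D.ix t l) ∈ Q := by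
    intro t l
    rcases hQp.mem_or_mem (mem_of_nilpotent hQp hker (D.plain (i + 1) hi t l)) with h | h
    · exact absurd (hQP h) (D.qf_notMem_cut hi hinj t)
    · exact h
  have hf : D.f i ∈ Q := by
    rcases D.new i hi Q hQp hker (fun x hx => hold (Ideal.subset_span hx)) with h | h
    · exact h
    · exfalso
      refine D.shiftC_ne i hi (hC _ ?_)
      have h1 : D.f i ∈ D.cut i :=
        Ideal.mem_sup_right (Ideal.subset_span (Or.inr rfl))
      simpa using sub_mem (hQP h) h1
  have hlow : ∀ z < i, D.st z ⊆ (Q : Set (Ser O n)) := by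
    intro z hz
    have hne : ¬ D.unr z ⊆ (D.cut i : Set (Ser O n)) := by
      intro hsub
      obtain ⟨γ₂, hγ₂⟩ := D.genExcl i hi z hz
      have heq : RingHom.ker (D.node i).act ⊔
          Ideal.span (varSet O D.ix ∪ upTo D.st i ∪ {D.f i} ∪ D.unr z) = D.cut i := by
        rw [cut, Ideal.span_union _ (D.unr z), ← sup_assoc]
        exact sup_eq_left.2 (Ideal.span_le.2 hsub)
      obtain ⟨s'', rfl⟩ : ∃ s'', s' = s'' + 1 :=
        ⟨s' - 1, by have := D.g_two; have := D.s_eq; omega⟩
      obtain ⟨φ, hφ, hnot⟩ := exists_kill (O := O) s''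
      let γ₃ : Ser O s'' →ₐ[O] Ser O n ⧸ D.cut i :=
        (Ideal.quotientEquivAlgOfEq O heq).toAlgHom.comp γ₂
      exact hnot fun x y hxy => hinj (γ₃.comp φ)
        (((Ideal.quotientEquivAlgOfEq O heq).surjective.comp hγ₂).comp hφ)
        (show γ₃ (φ x) = γ₃ (φ y) by rw [hxy])
    rcases D.split (i + 1) hi z (by omega) Q hQp (Or.inl hker) with h | h | h
    · exact absurd (fun x hx => hQP (h hx)) hne
    · exact h
    · refine absurd (h.2 (D.cut i) hPp hQP fun x hx => ?_) hne
      exact Ideal.mem_sup_right (Ideal.subset_span (Or.inl (Or.inr ⟨z, hz, hx⟩)))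
  have hst : D.st i ⊆ (Q : Set (Ser O n)) := by
    rcases D.split (i + 1) hi i (by omega) Q hQp (Or.inl hker) with h | h | h
    · exfalso
      refine not_comp_of_genBound_lt (s' := s' + 1 - 1) (by omega) (D.node (i + 1)) hQN
        (sup_le hker (Ideal.span_le.2 ?_)) (D.genNew i hi)
      rintro x (((⟨v, rfl⟩ | ⟨z, hz, hx⟩) | rfl) | hx)
      exacts [hX v.1 v.2, hlow z hz hx, hf, h hx]
    · exact h
    · exfalso
      refine D.shiftC_ne i hi (hC _ ?_)
      simpa using sub_mem (hQP h.1) (hQP hf)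
  have hle : D.pat (i + 1) ≤ Q := sup_le hker (Ideal.span_le.2 (by
    rintro x (⟨v, rfl⟩ | ⟨z, hz, hx⟩)
    · exact hX v.1 v.2
    · rcases Nat.lt_succ_iff_lt_or_eq.1 hz with h | rfl
      · exact hlow z h hx
      · exact hst hx))
  obtain ⟨rfl, -⟩ := targetComponent O n (s' + 1) (D.node (i + 1)) Q _ hQN hle (D.genX (i + 1) hi)
  exact hQN

/-- The start: the unramified pattern at the scalar primes. -/
theorem start (h2 : (2 : ResidueField O) ≠ 0) : (D.node 0).IsComp (D.pat 0) := by
  classical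
  obtain ⟨γ, hγX, hγU, hsurj⟩ := exists_model (k := D.k) (g := D.g) D.ix D.iu
    (I := RingHom.ker (D.node 0).act ⊓ RingHom.ker D.tw0.act) D.genT0
  have : Nontrivial D.tw0.alg := D.tw0.nontrivial_alg
  obtain ⟨M, hM⟩ := Ideal.exists_maximal D.tw0.alg
  obtain ⟨Qt, hQt, -⟩ := Ideal.exists_minimalPrimes_le (bot_le : ⊥ ≤ M)
  have : Qt.IsPrime := hQt.1.1
  set q := Qt.comap D.tw0.toAlg
  have hqp : q.IsPrime := Ideal.IsPrime.comap _
  have hqker : RingHom.ker D.tw0.act ≤ q := fun x hx => by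
    rw [← D.tw0.ker_toAlg] at hx
    rw [Ideal.mem_comap, RingHom.mem_ker.1 hx]
    exact zero_mem _
  have hIq : RingHom.ker (D.node 0).act ⊓ RingHom.ker D.tw0.act ≤ q := inf_le_right.trans hqker
  have hγY : ∀ t i, γ (P5.Yc t i) = frobVec O D.ix D.iu t i := fun t i => by
    rw [P5.Yc, map_sub, hγU, frobVec]
    congr 1
    fin_cases i <;> simp [P5.shift, hγX]
  have hγqX : ∀ t, γ (P5.qf (P5.Xc t)) =
      P5.qf (fun j => (MvPowerSeries.X (D.ix t j) : Ser O n)) := fun t => by
    simp only [P5.qf, map_add, map_mul, map_pow, hγX]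
  have hcurve : P5.curveIdeal D.δ ≤ q.comap γ := by
    rw [P5.curveIdeal, Ideal.span_le]
    rintro _ (⟨v, rfl⟩ | ⟨t, rfl⟩)
    · refine Ideal.mem_comap.2 (mem_of_nilpotent hqp hqker ?_)
      rw [show γ (P5.minor v.1 v.2.1 v.2.2) =
          frobVec O D.ix D.iu v.1 v.2.1 * MvPowerSeries.X (D.ix v.1 v.2.2) -
            frobVec O D.ix D.iu v.1 v.2.2 * MvPowerSeries.X (D.ix v.1 v.2.1) by
        simp only [P5.minor, map_sub, map_mul, hγX, hγY]]
      exact D.minor false v.1 v.2.1 v.2.2
    · refine Ideal.mem_comap.2 (mem_of_nilpotent hqp hqker ?_)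
      show IsNilpotent (D.tw0.act (γ (P5.qf (P5.Xc t) - MvPowerSeries.C (D.δ ^ 2))))
      rw [map_sub, hγqX, show γ (MvPowerSeries.C (D.δ ^ 2)) =
        MvPowerSeries.C (D.δ ^ 2) from γ.commutes _]
      exact D.curve false t
  have hcurvePrime : P5.IsCurvePrime D.δ (q.comap γ) := by
    refine ⟨Ideal.IsPrime.comap _, hcurve, fun a ha => ?_⟩
    set φ : P5.Loc O D.k D.g ⧸ P5.curveIdeal D.δ →+* D.tw0.alg ⧸ Qt :=
      Ideal.Quotient.lift _ ((Ideal.Quotient.mk Qt).comp (D.tw0.toAlg.comp γ.toRingHom))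
        fun x hx => Ideal.Quotient.eq_zero_iff_mem.2 (hcurve hx)
    have hφ : φ.Finite := by
      refine RingHom.Finite.of_comp_finite (f := Ideal.Quotient.mk _) ?_
      rw [Ideal.Quotient.lift_comp_mk]
      set ψ : Ser O n ⧸ (RingHom.ker (D.node 0).act ⊓ RingHom.ker D.tw0.act) →+*
          D.tw0.alg ⧸ Qt :=
        Ideal.Quotient.lift _ ((Ideal.Quotient.mk Qt).comp D.tw0.toAlg)
          fun x hx => Ideal.Quotient.eq_zero_iff_mem.2 (hIq hx)
      have hψ : ψ.Finite := RingHom.Finite.of_comp_finite (f := Ideal.Quotient.mk _) (by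
        rw [Ideal.Quotient.lift_comp_mk]; exact Patched.finite_component hQt)
      have heq : (Ideal.Quotient.mk Qt).comp (D.tw0.toAlg.comp γ.toRingHom) =
          ψ.comp ((Ideal.Quotient.mkₐ O _).comp γ).toRingHom := RingHom.ext fun x => rfl
      rw [heq]
      exact hψ.comp (RingHom.Finite.of_surjective _ hsurj)
    have hq' := (P5.finite_quotient_curveIdeal (k := D.k) (g := D.g) D.δ_mem).1
    obtain ⟨hgf, hgi⟩ := Patched.ringKrullDim_component hQt
    have e : P5.BaseVar D.k D.g ≃ Fin s := Fintype.equivFinOfCardEq (by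
      have := D.s_eq
      simp only [P5.BaseVar, Fintype.card_sum, Fintype.card_prod, Fintype.card_fin]
      omega)
    have : IsDomain (MvPowerSeries (P5.BaseVar D.k D.g) O) := NoZeroDivisors.to_isDomain _
    have hinj := P5.injective_of_finite (MvPowerSeries.renameEquiv O e).toRingEquiv
      (φ.comp ((Ideal.Quotient.mk (P5.curveIdeal D.δ)).comp P5.ofBase.toRingHom))
      (hφ.comp hq') _ hgf hgi
    refine hinj ?_
    rw [map_zero]
    exact Ideal.Quotient.eq_zero_iff_mem.2 ha
  obtain ⟨Q₀, hQ₀, hQ₀le⟩ := P5.exists_isCurvePrime_le_PA (k := D.k) (g := D.g) D.δ_mem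
  have hle : q.comap γ ≤ P5.PA := (hcurvePrime.le_of h2 D.δ_ne D.δ_mem hQ₀).trans hQ₀le
  have hkerPA := (ker_le_comap (γ := γ) hIq).trans hle
  set P := push γ (RingHom.ker (D.node 0).act ⊓ RingHom.ker D.tw0.act) P5.PA
  have hPp : P.IsPrime := isPrime_push hsurj inferInstance hkerPA
  have hsupp : (D.node 0).InSupp P := by
    refine D.special0 P (fun a ha => ?_)
      ⟨hPp, hqker.trans (le_push_of_comap_le hsurj hIq hle)⟩
    rw [← show γ (MvPowerSeries.C a) = MvPowerSeries.C a from γ.commutes a,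
      mem_push_iff hsurj hkerPA]
    exact P5.C_mem_PA ha
  obtain ⟨Q, hQ, hQP⟩ := Ideal.exists_minimalPrimes_le hsupp.2
  have hQp : Q.IsPrime := hQ.1.1
  have hle' : D.pat 0 ≤ Q := sup_le hQ.1.2 (Ideal.span_le.2 (by
    rintro x (⟨v, rfl⟩ | ⟨z, hz, -⟩)
    · rcases hQp.mem_or_mem (mem_of_nilpotent hQp hQ.1.2
        (D.plain 0 (Nat.zero_le _) v.1 v.2)) with h | h
      · exfalso
        refine P5.qf_Yc_sub_notMem_PA (k := D.k) (g := D.g) v.1
          (Ideal.pow_mem_of_mem _ (D.h_mem v.1) 2 two_pos) ((mem_push_iff hsurj hkerPA _).1 ?_)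
        convert hQP h
        rw [map_sub, show γ (MvPowerSeries.C (D.h v.1 ^ 2)) = MvPowerSeries.C (D.h v.1 ^ 2) from
          γ.commutes _]
        congr 1
        simp only [P5.qf, map_add, map_mul, map_pow, hγY]
      · exact h
    · omega))
  obtain ⟨rfl, -⟩ := targetComponent O n s (D.node 0) Q _ hQ hle' (D.genX 0 (Nat.zero_le _))
  exact hQ

/-- The last pattern is a component of the last module. -/
theorem chain (h2 : (2 : ResidueField O) ≠ 0) : ∀ i ≤ D.m, (D.node i).IsComp (D.pat i)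
  | 0, _ => D.start h2
  | i + 1, hi => D.step hi (chain h2 i (Nat.le_of_succ_le hi))

end Input

end FLTAgent.ModLift.Lift
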